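/-
KL-A, block CONST: basic API of `polyRing` / `chart`, and the statement that an element integral
over both `K₀[x]` and `K₀[x⁻¹]` is algebraic over `K₀`.
-/
import Mathlib
import Fermat.Agent.S18.Defs

set_option autoImplicit false

noncomputable section

namespace Fermat.Agent.S18

open Polynomial IntermediateField

section CONST

variable {K₀ F : Type*} [Field K₀] [Field F] [Algebra K₀ F]

theorem mem_polyRing_iff (A₀ : Subring K₀) (x y : F) :
    y ∈ polyRing A₀ x ↔ ∃ p : K₀[X], (∀ i, p.coeff i ∈ A₀) ∧ aeval x p = y := by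
  constructor
  · rintro ⟨p, rfl⟩
    exact ⟨p.map A₀.subtype, fun i => by simp, rfl⟩
  · rintro ⟨p, hp, rfl⟩
    have h : p ∈ Polynomial.lifts A₀.subtype := by
      rw [Polynomial.lifts_iff_coeff_lifts]
      intro i
      exact ⟨⟨_, hp i⟩, rfl⟩
    obtain ⟨q, rfl⟩ := h
    exact ⟨q, rfl⟩

theorem polyRing_le_chart (A₀ : Subring K₀) (x : F) : polyRing A₀ x ≤ chart A₀ x := by
  intro y hy
  exact (integralClosure (polyRing A₀ x) F).algebraMap_mem ⟨y, hy⟩

theorem mem_chart_iff_isIntegral (A₀ : Subring K₀) (x z : F) :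
    z ∈ chart A₀ x ↔ IsIntegral (polyRing A₀ x) z := Iff.rfl

/-- Change of the base ring of an integrality statement: only the image in `F` matters. -/
theorem isIntegral_of_forall_exists_algebraMap {R S : Type*} [CommRing R] [CommRing S]
    [Algebra R F] [Algebra S F] (h : ∀ r : R, ∃ s : S, algebraMap S F s = algebraMap R F r)
    {z : F} (hz : IsIntegral R z) : IsIntegral S z := by
  obtain ⟨p, hp, hpz⟩ := hz
  have hl : p.map (algebraMap R F) ∈ Polynomial.lifts (algebraMap S F) := by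
    rw [Polynomial.lifts_iff_coeff_lifts]
    intro i
    rw [coeff_map]
    exact h _
  obtain ⟨q, hq, -, hqm⟩ := Polynomial.lifts_and_natDegree_eq_and_monic hl (hp.map _)
  refine ⟨q, hqm, ?_⟩
  rw [← eval_map, hq, eval_map]
  exact hpz

theorem polyRing_mono {A₀ A₁ : Subring K₀} (h : A₀ ≤ A₁) (x : F) :
    polyRing A₀ x ≤ polyRing A₁ x := by
  intro y hy
  rw [mem_polyRing_iff] at hy ⊢
  obtain ⟨p, hp, rfl⟩ := hy
  exact ⟨p, fun i => h (hp i), rfl⟩

theorem chart_mono {A₀ A₁ : Subring K₀} (h : A₀ ≤ A₁) (x : F) : chart A₀ x ≤ chart A₁ x := by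
  intro z hz
  rw [mem_chart_iff_isIntegral] at hz ⊢
  exact isIntegral_of_forall_exists_algebraMap
    (fun r => ⟨⟨r.1, polyRing_mono h x r.2⟩, rfl⟩) hz

theorem mem_chart_of_isIntegral_chart (A₀ : Subring K₀) (x z : F)
    (h : IsIntegral (chart A₀ x) z) : z ∈ chart A₀ x := by
  rw [mem_chart_iff_isIntegral]
  have h' : IsIntegral (integralClosure (polyRing A₀ x) F) z :=
    isIntegral_of_forall_exists_algebraMap (fun r => ⟨⟨r.1, r.2⟩, rfl⟩) h
  exact isIntegral_trans z h'

theorem mem_polyRing_top_iff (x y : F) :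
    y ∈ polyRing (⊤ : Subring K₀) x ↔ y ∈ Algebra.adjoin K₀ {x} := by
  rw [mem_polyRing_iff, Algebra.adjoin_singleton_eq_range_aeval]
  constructor
  · rintro ⟨p, -, rfl⟩
    exact ⟨p, rfl⟩
  · rintro ⟨p, rfl⟩
    exact ⟨p, fun _ => Subring.mem_top _, rfl⟩

theorem isIntegral_adjoin_of_mem_chart_top {x z : F} (h : z ∈ chart (⊤ : Subring K₀) x) :
    IsIntegral (Algebra.adjoin K₀ {x}) z := by
  rw [mem_chart_iff_isIntegral] at h
  exact isIntegral_of_forall_exists_algebraMap
    (fun r => ⟨⟨r.1, (mem_polyRing_top_iff x r.1).mp r.2⟩, rfl⟩) h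

/-- `K₀[x] ∩ K₀[x⁻¹] = K₀` for `x` transcendental. -/
theorem exists_algebraMap_of_mem_adjoin_inv {x : F} (hx : Transcendental K₀ x) {y : F}
    (h₁ : y ∈ Algebra.adjoin K₀ {x}) (h₂ : y ∈ Algebra.adjoin K₀ {x⁻¹}) :
    ∃ c : K₀, algebraMap K₀ F c = y := by
  rw [Algebra.adjoin_singleton_eq_range_aeval] at h₁ h₂
  obtain ⟨p, rfl⟩ := h₁
  obtain ⟨q, hq⟩ := h₂
  have hx0 : x ≠ 0 := by
    rintro rfl
    exact hx (isAlgebraic_zero)
  let _ : Invertible x := invertibleOfNonzero hx0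
  have h1 := eval₂_reflect_mul_pow (algebraMap K₀ F) x q.natDegree (reflect q.natDegree q)
    (natDegree_reflect_le.trans (by simp))
  rw [reflect_reflect, invOf_eq_inv] at h1
  have h2 : aeval x (p * X ^ q.natDegree) = aeval x (reflect q.natDegree q) := by
    rw [map_mul, map_pow, aeval_X]
    change _ = eval₂ (algebraMap K₀ F) x _
    rw [← h1]
    congr 1
    exact hq.symm
  have h3 : p * X ^ q.natDegree = reflect q.natDegree q :=
    (transcendental_iff_injective.mp hx) h2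
  by_cases hp : p = 0
  · exact ⟨0, by simp [hp]⟩
  have h4 : p.natDegree + q.natDegree ≤ q.natDegree := by
    have := natDegree_reflect_le (N := q.natDegree) (p := q)
    rw [← h3, natDegree_mul_X_pow _ hp] at this
    simpa using this
  have h5 : p.natDegree = 0 := by omega
  rw [natDegree_eq_zero] at h5
  obtain ⟨c, rfl⟩ := h5
  exact ⟨c, by simp⟩

open IntermediateField.algebraAdjoinAdjoin in
theorem coeff_minpoly_mem_adjoin {x : F} (hx : Transcendental K₀ x) {z : F}
    (hz : IsIntegral (Algebra.adjoin K₀ {x}) z) (E : IntermediateField K₀ F)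
    (hE : E = K₀⟮x⟯) (i : ℕ) : ((minpoly E z).coeff i : F) ∈ Algebra.adjoin K₀ {x} := by
  subst hE
  have : IsIntegrallyClosed (Algebra.adjoin K₀ {x}) :=
    IsIntegrallyClosed.of_equiv (algEquivOfTranscendental K₀ x hx).toRingEquiv
  rw [minpoly.isIntegrallyClosed_eq_field_fractions' (K₀⟮x⟯) hz, coeff_map]
  exact ((minpoly (Algebra.adjoin K₀ {x}) z).coeff i).2

theorem adjoin_simple_inv_eq (x : F) : K₀⟮x⁻¹⟯ = K₀⟮x⟯ := by
  apply le_antisymm
  · rw [adjoin_simple_le_iff]
    exact inv_mem (mem_adjoin_simple_self K₀ x)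
  · rw [adjoin_simple_le_iff]
    have := inv_mem (mem_adjoin_simple_self K₀ x⁻¹)
    rwa [inv_inv] at this

theorem transcendental_inv {x : F} (hx : Transcendental K₀ x) : Transcendental K₀ x⁻¹ := by
  intro h
  apply hx
  have := h.inv
  rwa [inv_inv] at this

open IntermediateField.algebraAdjoinAdjoin in
theorem const_abs {x : F} (hx : Transcendental K₀ x) {z : F}
    (h₁ : z ∈ chart (⊤ : Subring K₀) x) (h₂ : z ∈ chart (⊤ : Subring K₀) x⁻¹) :
    IsAlgebraic K₀ z := by
  have i₁ := isIntegral_adjoin_of_mem_chart_top h₁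
  have i₂ := isIntegral_adjoin_of_mem_chart_top h₂
  have hzE : IsIntegral K₀⟮x⟯ z := i₁.tower_top
  have hl : minpoly K₀⟮x⟯ z ∈ Polynomial.lifts (algebraMap K₀ K₀⟮x⟯) := by
    rw [Polynomial.lifts_iff_coeff_lifts]
    intro i
    obtain ⟨c, hc⟩ := exists_algebraMap_of_mem_adjoin_inv hx
      (coeff_minpoly_mem_adjoin hx i₁ K₀⟮x⟯ rfl i)
      (coeff_minpoly_mem_adjoin (transcendental_inv hx) i₂ K₀⟮x⟯ (adjoin_simple_inv_eq x).symm i)
    exact ⟨c, Subtype.ext hc⟩
  obtain ⟨q, hq⟩ := hl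
  refine ⟨q, ?_, ?_⟩
  · rintro rfl
    apply minpoly.ne_zero hzE
    rw [← hq]
    simp
  · have := minpoly.aeval K₀⟮x⟯ z
    rw [← hq] at this
    simpa [aeval_map_algebraMap] using this

end CONST

end Fermat.Agent.S18
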