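/-
KL-A, task KLA-API (helper187): basic API of `IsUnif` (a valuation subring `Ow` of a field `F`
which is a discrete valuation ring with uniformiser `ϖ`).  Mathlib only.
-/
import Mathlib
import Fermat.Agent.S18.Defs

set_option autoImplicit false

namespace Fermat.Agent.S18

variable {F : Type*} [Field F] {Ow : ValuationSubring F} {ϖ : F}

theorem IsUnif.ne_zero (h : IsUnif Ow ϖ) : ϖ ≠ 0 := by
  intro h0
  apply h.inv_notMem
  rw [h0, inv_zero]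
  exact Ow.zero_mem

/-- nonnegative integral powers of the uniformiser are integral. -/
theorem IsUnif.zpow_mem (h : IsUnif Ow ϖ) {n : ℤ} (hn : 0 ≤ n) : ϖ ^ n ∈ Ow := by
  obtain ⟨k, rfl⟩ := Int.eq_ofNat_of_zero_le hn
  rw [zpow_natCast]
  exact Ow.pow_mem h.mem k

theorem IsUnif.not_both (h : IsUnif Ow ϖ) {y : F} (hy0 : y ≠ 0) (hy : y / ϖ ∈ Ow) : y⁻¹ ∉ Ow := by
  intro hinv
  apply h.inv_notMem
  have h1 : ϖ⁻¹ = y / ϖ * y⁻¹ := by
    field_simp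
  rw [h1]
  exact Ow.mul_mem _ _ hy hinv

/-- non-units are divisible by `ϖ`. -/
theorem IsUnif.div_mem (h : IsUnif Ow ϖ) {y : F} (hy : y ∈ Ow) (hy' : y⁻¹ ∉ Ow) : y / ϖ ∈ Ow := by
  have hϖ := h.ne_zero
  have hy0 : y ≠ 0 := by
    intro h0
    apply hy'
    rw [h0, inv_zero]
    exact Ow.zero_mem
  obtain ⟨n, hu, hu'⟩ := h.exists_zpow y hy0
  have hn : 1 ≤ n := by
    by_contra hlt
    apply hy'
    have h1 : y⁻¹ = (y / ϖ ^ n)⁻¹ * ϖ ^ (-n) := by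
      rw [zpow_neg]
      field_simp
    rw [h1]
    exact Ow.mul_mem _ _ hu' (h.zpow_mem (by omega))
  have h2 : y / ϖ = y / ϖ ^ n * ϖ ^ (n - 1) := by
    rw [zpow_sub_one₀ hϖ]
    field_simp
  rw [h2]
  exact Ow.mul_mem _ _ hu (h.zpow_mem (by omega))

theorem IsUnif.mem_of_div_pow (h : IsUnif Ow ϖ) {y : F} {k : ℕ} (hy : y / ϖ ^ k ∈ Ow) : y ∈ Ow := by
  have hϖ := h.ne_zero
  have h1 : y = y / ϖ ^ k * ϖ ^ k := by
    field_simp
  rw [h1]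
  exact Ow.mul_mem _ _ hy (Ow.pow_mem h.mem k)

theorem IsUnif.exists_pow_mul_mem (h : IsUnif Ow ϖ) (y : F) : ∃ r : ℕ, ϖ ^ r * y ∈ Ow := by
  have hϖ := h.ne_zero
  rcases eq_or_ne y 0 with rfl | hy0
  · exact ⟨0, by rw [mul_zero]; exact Ow.zero_mem⟩
  obtain ⟨n, hu, -⟩ := h.exists_zpow y hy0
  refine ⟨(-n).toNat, ?_⟩
  have h1 : ϖ ^ (-n).toNat * y = y / ϖ ^ n * ϖ ^ (n + ((-n).toNat : ℤ)) := by
    rw [zpow_add₀ hϖ, zpow_natCast]
    field_simp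
  rw [h1]
  exact Ow.mul_mem _ _ hu (h.zpow_mem (by omega))

theorem IsUnif.exists_unit_div_pow (h : IsUnif Ow ϖ) {y : F} (hy : y ∈ Ow) (hy0 : y ≠ 0) :
    ∃ n : ℕ, y / ϖ ^ n ∈ Ow ∧ (y / ϖ ^ n)⁻¹ ∈ Ow := by
  have hϖ := h.ne_zero
  obtain ⟨n, hu, hu'⟩ := h.exists_zpow y hy0
  have hn : 0 ≤ n := by
    by_contra hlt
    have hu0 : y / ϖ ^ n ≠ 0 := div_ne_zero hy0 (zpow_ne_zero _ hϖ)
    refine h.not_both hu0 ?_ hu'
    have h1 : y / ϖ ^ n / ϖ = y * ϖ ^ (-n - 1) := by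
      rw [zpow_sub_one₀ hϖ, zpow_neg]
      field_simp
    rw [h1]
    exact Ow.mul_mem _ _ hy (h.zpow_mem (by omega))
  obtain ⟨k, rfl⟩ := Int.eq_ofNat_of_zero_le hn
  refine ⟨k, ?_, ?_⟩
  · rwa [zpow_natCast] at hu
  · rwa [zpow_natCast] at hu'

/-- units `≡ 1`. -/
theorem IsUnif.mem_of_sub_one {Ow : ValuationSubring F} {ϖ : F} (hϖ : IsUnif Ow ϖ) {h : F}
    (hh : (h - 1) / ϖ ∈ Ow) : h ∈ Ow ∧ h⁻¹ ∈ Ow := by
  have h0 := hϖ.ne_zero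
  have hmem : h ∈ Ow := by
    have h1 : h = 1 + ϖ * ((h - 1) / ϖ) := by
      field_simp
      ring
    rw [h1]
    exact Ow.add_mem _ _ Ow.one_mem (Ow.mul_mem _ _ hϖ.mem hh)
  refine ⟨hmem, ?_⟩
  by_contra hinv
  apply hϖ.inv_notMem
  have h2 : ϖ⁻¹ = h / ϖ - (h - 1) / ϖ := by
    field_simp
    ring
  rw [h2]
  exact Ow.sub_mem (hϖ.div_mem hmem hinv) hh

/-- valuation rings are integrally closed. -/
theorem IsUnif.pow_mem_iff (Ow : ValuationSubring F) {y : F} {m : ℕ} (hm : m ≠ 0) :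
    y ^ m ∈ Ow ↔ y ∈ Ow := by
  constructor
  · intro hy
    rcases Ow.mem_or_inv_mem y with h | h
    · exact h
    · rcases eq_or_ne y 0 with rfl | hy0
      · exact Ow.zero_mem
      obtain ⟨k, rfl⟩ := Nat.exists_eq_succ_of_ne_zero hm
      have h1 : y = y ^ (k + 1) * y⁻¹ ^ k := by
        rw [pow_succ, inv_pow]
        field_simp
      rw [h1]
      exact Ow.mul_mem _ _ hy (Ow.pow_mem h k)
  · intro hy
    exact Ow.pow_mem hy m

end Fermat.Agent.S18
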