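/-
KL-A, block CHART/Ded, node KLA-DED-P1 (task 1046, helper211):
`K₀(x) = Frac A₀[x]` and `K₀[x] = A₀[x][1/ϖ]`, elementwise.
-/
import Mathlib
import Fermat.Agent.S18.Defs
import Fermat.Agent.S18.Chart.Unif
import Fermat.Agent.S18.Chart.Const

set_option autoImplicit false

noncomputable section

namespace Fermat.Agent.S18

open Polynomial IntermediateField

variable {K₀ F : Type*} [Field K₀] [Field F] [Algebra K₀ F]
variable {A₀ : ValuationSubring K₀} {ϖ₀ : K₀} {Ow : ValuationSubring F}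
variable {E : IntermediateField K₀ F} {x : F}

/-- raising the exponent -/
theorem IsUnif.pow_mul_mem_of_le (h : IsUnif A₀ ϖ₀) {y : K₀} {r n : ℕ} (hrn : r ≤ n)
    (hy : ϖ₀ ^ r * y ∈ A₀) : ϖ₀ ^ n * y ∈ A₀ := by
  obtain ⟨k, rfl⟩ := Nat.exists_eq_add_of_le hrn
  have h1 : ϖ₀ ^ (r + k) * y = ϖ₀ ^ k * (ϖ₀ ^ r * y) := by ring
  rw [h1]
  exact A₀.mul_mem _ _ (A₀.pow_mem h.mem k) hy

/-- clearing the denominators of a polynomial -/
theorem IsUnif.exists_pow_mul_coeff_mem (h : IsUnif A₀ ϖ₀) (p : K₀[X]) :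
    ∃ n : ℕ, ∀ m, n ≤ m → ∀ i, (C (ϖ₀ ^ m) * p).coeff i ∈ A₀ := by
  choose r hr using fun y : K₀ => h.exists_pow_mul_mem y
  refine ⟨p.support.sup fun i => r (p.coeff i), fun m hm i => ?_⟩
  rw [coeff_C_mul]
  by_cases hi : i ∈ p.support
  · exact h.pow_mul_mem_of_le
      ((Finset.le_sup (f := fun i => r (p.coeff i)) hi).trans hm) (hr _)
  · rw [notMem_support_iff.mp hi, mul_zero]
    exact A₀.zero_mem

theorem mem_of_mem_polyRing (hE : K₀⟮x⟯ = E) (S : Subring K₀) : ∀ y ∈ polyRing S x, y ∈ E := by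
  intro y hy
  obtain ⟨p, -, rfl⟩ := (mem_polyRing_iff S x y).mp hy
  rw [← hE]
  rw [IntermediateField.mem_adjoin_simple_iff]
  exact ⟨p, 1, by simp⟩

theorem exists_frac_polyRing (h₀ : IsUnif A₀ ϖ₀) (hE : K₀⟮x⟯ = E) :
    ∀ y ∈ E, ∃ a ∈ polyRing A₀.toSubring x, ∃ b ∈ polyRing A₀.toSubring x, b ≠ 0 ∧ y * b = a := by
  intro y hy
  rw [← hE, IntermediateField.mem_adjoin_simple_iff] at hy
  obtain ⟨r, s, rfl⟩ := hy
  by_cases hs : aeval x s = 0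
  · refine ⟨0, Subring.zero_mem _, 1, Subring.one_mem _, one_ne_zero, ?_⟩
    rw [hs, div_zero, zero_mul]
  · obtain ⟨n₁, h₁⟩ := h₀.exists_pow_mul_coeff_mem r
    obtain ⟨n₂, h₂⟩ := h₀.exists_pow_mul_coeff_mem s
    have hϖ : algebraMap K₀ F (ϖ₀ ^ max n₁ n₂) ≠ 0 := by
      rw [Ne, map_eq_zero]
      exact pow_ne_zero _ h₀.ne_zero
    refine ⟨aeval x (C (ϖ₀ ^ max n₁ n₂) * r),
      (mem_polyRing_iff _ x _).mpr ⟨_, h₁ _ (le_max_left _ _), rfl⟩,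
      aeval x (C (ϖ₀ ^ max n₁ n₂) * s),
      (mem_polyRing_iff _ x _).mpr ⟨_, h₂ _ (le_max_right _ _), rfl⟩, ?_, ?_⟩
    · rw [map_mul, aeval_C]
      exact mul_ne_zero hϖ hs
    · rw [map_mul, map_mul, aeval_C]
      field_simp

theorem exists_pow_mul_mem_polyRing (h₀ : IsUnif A₀ ϖ₀) :
    ∀ y ∈ polyRing (⊤ : Subring K₀) x,
      ∃ n : ℕ, algebraMap K₀ F ϖ₀ ^ n * y ∈ polyRing A₀.toSubring x := by
  intro y hy
  obtain ⟨p, -, rfl⟩ := (mem_polyRing_iff _ x y).mp hy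
  obtain ⟨n, hn⟩ := h₀.exists_pow_mul_coeff_mem p
  refine ⟨n, (mem_polyRing_iff _ x _).mpr ⟨_, hn n le_rfl, ?_⟩⟩
  rw [map_mul, aeval_C, map_pow]

theorem algebraMap_mem_polyRing_top (c : K₀) :
    algebraMap K₀ F c ∈ polyRing (⊤ : Subring K₀) x :=
  (mem_polyRing_iff _ x _).mpr ⟨C c, fun _ => Subring.mem_top _, aeval_C x c⟩

end Fermat.Agent.S18
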