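/-
KL-A, block CHART/Ded, shared node of KLA-DED-P2/P3/R (proofs helper99).
`S[X] ≃+* S[x]` for a subring `S` of `K₀` and `x` transcendental over `K₀`.
-/
import Mathlib
import Fermat.Agent.S18.Defs

set_option autoImplicit false

noncomputable section

namespace Fermat.Agent.S18

open Polynomial IntermediateField

variable {K₀ F : Type*} [Field K₀] [Field F] [Algebra K₀ F]
variable {x : F}

/-- `S[X] ≃+* S[x]` for `x` transcendental. -/
def polyEquiv (S : Subring K₀) (hx : Transcendental K₀ x) : (S : Type _)[X] ≃+* polyRing S x :=
  RingEquiv.ofBijective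
    ((Polynomial.aeval x : K₀[X] →ₐ[K₀] F).toRingHom.comp
      (Polynomial.mapRingHom S.subtype)).rangeRestrict
    ⟨by
      intro p q hpq
      have h1 : aeval x (p.map S.subtype) = aeval x (q.map S.subtype) := congrArg Subtype.val hpq
      exact Polynomial.map_injective _ Subtype.val_injective
        (transcendental_iff_injective.mp hx h1),
      RingHom.rangeRestrict_surjective _⟩

theorem coe_polyEquiv (S : Subring K₀) (hx : Transcendental K₀ x) (p : (S : Type _)[X]) :
    ((polyEquiv S hx p : polyRing S x) : F) = aeval x (p.map S.subtype) := rfl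

theorem polyEquiv_C (S : Subring K₀) (hx : Transcendental K₀ x) (a : S) :
    ((polyEquiv S hx (C a) : polyRing S x) : F) = algebraMap K₀ F a := by
  rw [coe_polyEquiv, Polynomial.map_C, aeval_C]
  rfl

theorem polyEquiv_X (S : Subring K₀) (hx : Transcendental K₀ x) :
    ((polyEquiv S hx X : polyRing S x) : F) = x := by
  rw [coe_polyEquiv, Polynomial.map_X, aeval_X]

end Fermat.Agent.S18
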