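/-
KL-A block CHART/Ded, node KLA-DED-U: `IsUnif A₀ ϖ₀` implies that `ϖ₀` is irreducible in `A₀` and
that `A₀` is a discrete valuation ring.
-/
import Mathlib
import Fermat.Agent.S18.Defs
import Fermat.Agent.S18.Chart.Unif

set_option autoImplicit false

noncomputable section

namespace Fermat.Agent.S18

open Polynomial IntermediateField

variable {K₀ F : Type*} [Field K₀] [Field F] [Algebra K₀ F]
variable {A₀ : ValuationSubring K₀} {ϖ₀ : K₀} {Ow : ValuationSubring F}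
variable {E : IntermediateField K₀ F} {x : F}

/-- the inverse of a unit of `A₀` lies in `A₀` -/
theorem Ded.inv_mem_of_isUnit {a : A₀} (ha : IsUnit a) : (a : K₀)⁻¹ ∈ A₀ := by
  obtain ⟨u, rfl⟩ := ha
  have h1 : ((u : A₀) : K₀) * (((u⁻¹ : A₀ˣ) : A₀) : K₀) = 1 := by
    rw [← A₀.coe_mul, Units.mul_inv, A₀.coe_one]
  rw [inv_eq_of_mul_eq_one_right h1]
  exact (((u⁻¹ : A₀ˣ) : A₀)).2

/-- a nonzero element of `A₀` whose inverse lies in `A₀` is a unit -/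
theorem Ded.isUnit_of_inv_mem {a : A₀} (h0 : (a : K₀) ≠ 0) (h : (a : K₀)⁻¹ ∈ A₀) : IsUnit a := by
  refine IsUnit.of_mul_eq_one ⟨(a : K₀)⁻¹, h⟩ (Subtype.ext ?_)
  show (a : K₀) * (a : K₀)⁻¹ = 1
  exact mul_inv_cancel₀ h0

theorem IsUnif.irreducible (h : IsUnif A₀ ϖ₀) : Irreducible (⟨ϖ₀, h.mem⟩ : A₀) := by
  have hϖ := h.ne_zero
  constructor
  · intro hu
    exact h.inv_notMem (Ded.inv_mem_of_isUnit hu)
  · intro a b hab
    have hab' : ϖ₀ = (a : K₀) * (b : K₀) := congrArg Subtype.val hab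
    have ha0 : (a : K₀) ≠ 0 := by
      intro h0
      rw [h0, zero_mul] at hab'
      exact hϖ hab'
    have hb0 : (b : K₀) ≠ 0 := by
      intro h0
      rw [h0, mul_zero] at hab'
      exact hϖ hab'
    by_contra hcon
    rw [not_or] at hcon
    have ha : (a : K₀)⁻¹ ∉ A₀ := fun hm => hcon.1 (Ded.isUnit_of_inv_mem ha0 hm)
    have hb : (b : K₀)⁻¹ ∉ A₀ := fun hm => hcon.2 (Ded.isUnit_of_inv_mem hb0 hm)
    apply h.inv_notMem
    have h1 : ϖ₀⁻¹ = (a : K₀) / ϖ₀ * ((b : K₀) / ϖ₀) := by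
      rw [div_mul_div_comm, ← hab']
      field_simp
    rw [h1]
    exact A₀.mul_mem _ _ (h.div_mem a.2 ha) (h.div_mem b.2 hb)

theorem IsUnif.isDiscreteValuationRing (h : IsUnif A₀ ϖ₀) : IsDiscreteValuationRing A₀ := by
  have hϖ := h.ne_zero
  refine IsDiscreteValuationRing.ofHasUnitMulPowIrreducibleFactorization
    ⟨⟨ϖ₀, h.mem⟩, h.irreducible, ?_⟩
  intro y hy
  have hy0 : (y : K₀) ≠ 0 := fun h0 => hy (Subtype.ext h0)
  obtain ⟨n, hu, hu'⟩ := h.exists_unit_div_pow y.2 hy0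
  refine ⟨n, ?_⟩
  have hunit : IsUnit (⟨(y : K₀) / ϖ₀ ^ n, hu⟩ : A₀) :=
    Ded.isUnit_of_inv_mem (div_ne_zero hy0 (pow_ne_zero _ hϖ)) hu'
  obtain ⟨u, hu2⟩ := hunit
  refine ⟨u, Subtype.ext ?_⟩
  rw [hu2]
  show ϖ₀ ^ n * ((y : K₀) / ϖ₀ ^ n) = y
  field_simp

end Fermat.Agent.S18
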