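/-
KL-A, block CHART/Ded, node KLA-DED-P2 (proofs helper99).
`A₀[x] ≅ A₀[X]` is noetherian and integrally closed in `E = K₀(x)`; `K₀[x]` is a PID.
-/
import Mathlib
import Fermat.Agent.S18.Defs
import Fermat.Agent.S18.Chart.DedPolyEquiv
import Fermat.Agent.S18.Chart.DedUnif
import Fermat.Agent.S18.Chart.DedFrac

set_option autoImplicit false
set_option linter.style.haveILetI false

noncomputable section

namespace Fermat.Agent.S18

open Polynomial IntermediateField

variable {K₀ F : Type*} [Field K₀] [Field F] [Algebra K₀ F]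
variable {A₀ : ValuationSubring K₀} {ϖ₀ : K₀} {Ow : ValuationSubring F}
variable {E : IntermediateField K₀ F} {x : F}

/-- an integrally closed subring of a field contains the fractions which are integral over it. -/
theorem DedPoly.mem_of_isIntegral_of_frac {F : Type*} [Field F] (R : Subring F)
    [IsIntegrallyClosed R] {y a b : F} (ha : a ∈ R) (hb : b ∈ R) (hb0 : b ≠ 0) (hy : y * b = a)
    (hint : IsIntegral R y) : y ∈ R := by
  have hinj : Function.Injective (algebraMap R F) := Subtype.val_injective
  let ι : FractionRing R →+* F := IsFractionRing.lift hinj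
  letI : Algebra (FractionRing R) F := ι.toAlgebra
  haveI : IsScalarTower R (FractionRing R) F :=
    IsScalarTower.of_algebraMap_eq (fun r => (IsFractionRing.lift_algebraMap hinj r).symm)
  let z : FractionRing R :=
    algebraMap R (FractionRing R) ⟨a, ha⟩ / algebraMap R (FractionRing R) ⟨b, hb⟩
  have hz : algebraMap (FractionRing R) F z = y := by
    rw [map_div₀, ← IsScalarTower.algebraMap_apply, ← IsScalarTower.algebraMap_apply]
    show a / b = y
    rw [← hy, mul_div_assoc, div_self hb0, mul_one]
  have hzint : IsIntegral R z :=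
    (isIntegral_algebraMap_iff (algebraMap (FractionRing R) F).injective).1 (hz ▸ hint)
  obtain ⟨r, hr⟩ := IsIntegrallyClosed.isIntegral_iff.1 hzint
  rw [← hz, ← hr, ← IsScalarTower.algebraMap_apply]
  exact r.2

theorem isNoetherianRing_polyRing (h₀ : IsUnif A₀ ϖ₀) (hx : Transcendental K₀ x) :
    IsNoetherianRing (polyRing A₀.toSubring x) := by
  haveI : IsDiscreteValuationRing A₀ := h₀.isDiscreteValuationRing
  haveI : IsNoetherianRing A₀.toSubring := inferInstanceAs (IsNoetherianRing A₀)
  exact isNoetherianRing_of_ringEquiv _ (polyEquiv A₀.toSubring hx)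

theorem DedPoly.isIntegrallyClosed_polyRing (hx : Transcendental K₀ x) :
    IsIntegrallyClosed (polyRing A₀.toSubring x) := by
  haveI : IsIntegrallyClosed A₀.toSubring := inferInstanceAs (IsIntegrallyClosed A₀)
  exact IsIntegrallyClosed.of_equiv (polyEquiv A₀.toSubring hx)

theorem mem_polyRing_of_isIntegral (h₀ : IsUnif A₀ ϖ₀) (hx : Transcendental K₀ x)
    (hE : K₀⟮x⟯ = E) :
    ∀ y ∈ E, IsIntegral (polyRing A₀.toSubring x) y → y ∈ polyRing A₀.toSubring x := by
  intro y hy hint
  haveI := DedPoly.isIntegrallyClosed_polyRing (A₀ := A₀) hx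
  obtain ⟨a, ha, b, hb, hb0, hab⟩ := exists_frac_polyRing h₀ hE y hy
  exact DedPoly.mem_of_isIntegral_of_frac _ ha hb hb0 hab hint

theorem isPrincipalIdealRing_polyRing_top (hx : Transcendental K₀ x) :
    IsPrincipalIdealRing (polyRing (⊤ : Subring K₀) x) := by
  let e : K₀[X] ≃+* polyRing (⊤ : Subring K₀) x :=
    (Polynomial.mapEquiv (Subring.topEquiv (R := K₀)).symm).trans (polyEquiv ⊤ hx)
  exact IsPrincipalIdealRing.of_surjective (e : K₀[X] →+* _) e.surjective

end Fermat.Agent.S18
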