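/-
KL-A, block CHART, node COORD (task KLA-COORD; proofs helper61).
Gauss lemma `K₀[x] ∩ Ow = A₀[x]`, primitive polynomials are `w`-units, `x` is transcendental.
Imports Mathlib + `S18/Defs.lean` only; the few facts on `IsUnif` which are needed are proved
locally in the namespace `Fermat.Agent.S18.CoordAux`.
-/
import Mathlib
import Fermat.Agent.S18.Defs

set_option autoImplicit false

noncomputable section

namespace Fermat.Agent.S18

open Polynomial IntermediateField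

namespace CoordAux

variable {F : Type*} [Field F] {Ow : ValuationSubring F} {ϖ : F}

theorem unif_ne_zero (h : IsUnif Ow ϖ) : ϖ ≠ 0 := by
  rintro rfl
  exact h.inv_notMem (by rw [inv_zero]; exact Ow.zero_mem)

theorem unif_zpow_mem (h : IsUnif Ow ϖ) {n : ℤ} (hn : 0 ≤ n) : ϖ ^ n ∈ Ow := by
  obtain ⟨k, rfl⟩ := Int.eq_ofNat_of_zero_le hn
  rw [zpow_natCast]
  exact pow_mem h.mem k

theorem nonneg_of_zpow_mem (h : IsUnif Ow ϖ) {n : ℤ} (hn : ϖ ^ n ∈ Ow) : 0 ≤ n := by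
  by_contra hlt
  have h0 := unif_ne_zero h
  have h1 : ϖ⁻¹ = ϖ ^ n * ϖ ^ (-n - 1) := by
    rw [← zpow_add₀ h0, ← zpow_neg_one]
    congr 1
    ring
  apply h.inv_notMem
  rw [h1]
  exact mul_mem hn (unif_zpow_mem h (by omega))

/-- non-units are divisible by the uniformiser -/
theorem div_mem_of_inv_notMem (h : IsUnif Ow ϖ) {y : F} (hy' : y⁻¹ ∉ Ow) : y / ϖ ∈ Ow := by
  have h0 := unif_ne_zero h
  have hy0 : y ≠ 0 := by
    rintro rfl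
    exact hy' (by rw [inv_zero]; exact Ow.zero_mem)
  obtain ⟨n, hn1, hn2⟩ := h.exists_zpow y hy0
  have hn : 1 ≤ n := by
    by_contra hlt
    apply hy'
    have : y⁻¹ = (y / ϖ ^ n)⁻¹ * ϖ ^ (-n) := by
      rw [zpow_neg]
      field_simp
    rw [this]
    exact mul_mem hn2 (unif_zpow_mem h (by omega))
  have : y / ϖ = (y / ϖ ^ n) * ϖ ^ (n - 1) := by
    rw [zpow_sub₀ h0, zpow_one]
    field_simp
  rw [this]
  exact mul_mem hn1 (unif_zpow_mem h (by omega))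

/-- a unit is not divisible by the uniformiser -/
theorem not_div_mem_of_unit (h : IsUnif Ow ϖ) {u : F} (hu0 : u ≠ 0) (hu : u⁻¹ ∈ Ow) :
    u / ϖ ∉ Ow := by
  intro hdiv
  apply h.inv_notMem
  have : ϖ⁻¹ = (u / ϖ) * u⁻¹ := by
    field_simp
  rw [this]
  exact mul_mem hdiv hu

end CoordAux

open CoordAux

variable {K₀ F : Type*} [Field K₀] [Field F] [Algebra K₀ F]
variable {A₀ : ValuationSubring K₀} {ϖ₀ : K₀} {Ow : ValuationSubring F}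
variable {E : IntermediateField K₀ F} {x : F}

theorem IsCoord.exists_primitive (h₀ : IsUnif A₀ ϖ₀) (p : K₀[X]) (hp : p ≠ 0) :
    ∃ (n : ℤ) (p₀ : K₀[X]), p = C (ϖ₀ ^ n) * p₀ ∧ (∀ i, p₀.coeff i ∈ A₀) ∧
      ∃ i, (p₀.coeff i)⁻¹ ∈ A₀ ∧ p₀.coeff i ≠ 0 := by
  have h0 := unif_ne_zero h₀
  have hex : ∀ i : ℕ, ∃ n : ℤ, p.coeff i ≠ 0 →
      p.coeff i / ϖ₀ ^ n ∈ A₀ ∧ (p.coeff i / ϖ₀ ^ n)⁻¹ ∈ A₀ := by
    intro i
    by_cases hi : p.coeff i = 0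
    · exact ⟨0, fun h => absurd hi h⟩
    · obtain ⟨n, hn⟩ := h₀.exists_zpow _ hi
      exact ⟨n, fun _ => hn⟩
  choose ν hν using hex
  have hne : p.support.Nonempty := by
    rwa [Polynomial.nonempty_support_iff]
  obtain ⟨i₀, hi₀, hmin⟩ := Finset.exists_min_image p.support ν hne
  refine ⟨ν i₀, C (ϖ₀ ^ (-ν i₀)) * p, ?_, ?_, i₀, ?_, ?_⟩
  · rw [← mul_assoc, ← C_mul, ← zpow_add₀ h0, add_neg_cancel, zpow_zero, C_1, one_mul]
  · intro i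
    rw [coeff_C_mul]
    by_cases hi : p.coeff i = 0
    · rw [hi, mul_zero]
      exact A₀.zero_mem
    · have h1 := (hν i hi).1
      have h2 : ν i₀ ≤ ν i := hmin i (Polynomial.mem_support_iff.mpr hi)
      have h3 : ϖ₀ ^ (-ν i₀) * p.coeff i = (p.coeff i / ϖ₀ ^ ν i) * ϖ₀ ^ (ν i - ν i₀) := by
        rw [zpow_sub₀ h0, zpow_neg]
        field_simp
      rw [h3]
      exact mul_mem h1 (unif_zpow_mem h₀ (by omega))
  · rw [coeff_C_mul]
    have hi := Polynomial.mem_support_iff.mp hi₀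
    have h2 := (hν i₀ hi).2
    have h3 : ϖ₀ ^ (-ν i₀) * p.coeff i₀ = p.coeff i₀ / ϖ₀ ^ ν i₀ := by
      rw [zpow_neg]
      field_simp
    rwa [h3]
  · rw [coeff_C_mul]
    exact mul_ne_zero (zpow_ne_zero _ h0) (Polynomial.mem_support_iff.mp hi₀)

/-- a primitive polynomial does not vanish modulo the uniformiser at `x`. -/
theorem IsCoord.not_div_mem_of_primitive (h₀ : IsUnif A₀ ϖ₀) (hx : IsCoord A₀ ϖ₀ Ow E x)
    (p₀ : K₀[X]) (h1 : ∀ i, p₀.coeff i ∈ A₀) (h2 : ∃ i, (p₀.coeff i)⁻¹ ∈ A₀ ∧ p₀.coeff i ≠ 0) :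
    aeval x p₀ / algebraMap K₀ F ϖ₀ ∉ Ow := by
  intro hdiv
  obtain ⟨i, hi, hi0⟩ := h2
  exact not_div_mem_of_unit h₀ hi0 hi (hx.transc p₀ h1 hdiv i)

theorem IsCoord.transcendental (h₀ : IsUnif A₀ ϖ₀) (hx : IsCoord A₀ ϖ₀ Ow E x) :
    Transcendental K₀ x := by
  rw [transcendental_iff]
  intro p hp
  by_contra hp0
  obtain ⟨n, p₀, hpp, h1, h2⟩ := IsCoord.exists_primitive h₀ p hp0
  have h0 := unif_ne_zero h₀
  have h3 : aeval x p₀ = 0 := by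
    rw [hpp, map_mul, aeval_C] at hp
    rcases mul_eq_zero.mp hp with h | h
    · exact absurd h ((_root_.map_ne_zero _).mpr (zpow_ne_zero _ h0))
    · exact h
  apply hx.not_div_mem_of_primitive h₀ p₀ h1 h2
  rw [h3, zero_div]
  exact Ow.zero_mem

theorem IsCoord.unit_of_primitive (hw : IsUnif Ow (algebraMap K₀ F ϖ₀))
    (hc : ∀ a ∈ A₀, algebraMap K₀ F a ∈ Ow) (h₀ : IsUnif A₀ ϖ₀) (hx : IsCoord A₀ ϖ₀ Ow E x)
    (p₀ : K₀[X]) (h1 : ∀ i, p₀.coeff i ∈ A₀) (h2 : ∃ i, (p₀.coeff i)⁻¹ ∈ A₀ ∧ p₀.coeff i ≠ 0) :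
    aeval x p₀ ∈ Ow ∧ (aeval x p₀)⁻¹ ∈ Ow := by
  constructor
  · rw [aeval_eq_sum_range]
    refine Ow.toSubring.sum_mem fun i _ => ?_
    rw [Algebra.smul_def]
    exact mul_mem (hc _ (h1 i)) (pow_mem hx.mem i)
  · by_contra hinv
    exact hx.not_div_mem_of_primitive h₀ p₀ h1 h2 (div_mem_of_inv_notMem hw hinv)

theorem IsCoord.gauss (hw : IsUnif Ow (algebraMap K₀ F ϖ₀))
    (hc : ∀ a ∈ A₀, algebraMap K₀ F a ∈ Ow) (h₀ : IsUnif A₀ ϖ₀) (hx : IsCoord A₀ ϖ₀ Ow E x)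
    (p : K₀[X]) (hp : aeval x p ∈ Ow) : ∀ i, p.coeff i ∈ A₀ := by
  intro i
  by_cases hp0 : p = 0
  · rw [hp0, coeff_zero]
    exact A₀.zero_mem
  obtain ⟨n, p₀, hpp, h1, h2⟩ := IsCoord.exists_primitive h₀ p hp0
  obtain ⟨hu1, hu2⟩ := hx.unit_of_primitive hw hc h₀ p₀ h1 h2
  have hy0 : aeval x p₀ ≠ 0 := by
    intro h
    apply hx.not_div_mem_of_primitive h₀ p₀ h1 h2
    rw [h, zero_div]
    exact Ow.zero_mem
  have h3 : (algebraMap K₀ F ϖ₀) ^ n = aeval x p * (aeval x p₀)⁻¹ := by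
    rw [hpp, map_mul, aeval_C, map_zpow₀, mul_assoc, mul_inv_cancel₀ hy0, mul_one]
  have hn : 0 ≤ n := nonneg_of_zpow_mem hw (by rw [h3]; exact mul_mem hp hu2)
  rw [hpp, coeff_C_mul]
  exact mul_mem (unif_zpow_mem h₀ hn) (h1 i)

end Fermat.Agent.S18
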