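/-
KL-A, block CHART, node KLA-CH4 (helper151): the chart is a finite module over `A₀[x]`
(generators in span form) and a noetherian ring.
-/
import Mathlib
import Fermat.Agent.S18.Defs
import Fermat.Agent.S18.Chart.Unif
import Fermat.Agent.S18.Chart.Const
import Fermat.Agent.S18.Chart.Coord
import Fermat.Agent.S18.Chart.DedUnif
import Fermat.Agent.S18.Chart.DedFrac
import Fermat.Agent.S18.Chart.DedPolyEquiv
import Fermat.Agent.S18.Nor.Subring

set_option autoImplicit false
set_option linter.style.haveILetI false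

noncomputable section

namespace Fermat.Agent.S18

open Polynomial IntermediateField

variable {K₀ F : Type*} [Field K₀] [Field F] [Algebra K₀ F]
variable {A₀ : ValuationSubring K₀} {ϖ₀ : K₀} {Ow : ValuationSubring F}
variable {E : IntermediateField K₀ F} {x : F}

namespace ChartFinite

/-- `A₀[x]` is noetherian. -/
theorem isNoetherianRing_polyRing' (h₀ : IsUnif A₀ ϖ₀) (hx : Transcendental K₀ x) :
    IsNoetherianRing (polyRing A₀.toSubring x) := by
  haveI : IsDiscreteValuationRing A₀ := h₀.isDiscreteValuationRing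
  haveI : IsNoetherianRing A₀.toSubring := inferInstanceAs (IsNoetherianRing A₀)
  exact isNoetherianRing_of_ringEquiv _ (polyEquiv A₀.toSubring hx)

/-- `A₀[x]` is integrally closed. -/
theorem isIntegrallyClosed_polyRing' (hx : Transcendental K₀ x) :
    IsIntegrallyClosed (polyRing A₀.toSubring x) := by
  haveI : IsIntegrallyClosed (A₀.toSubring : Type _)[X] := inferInstance
  exact IsIntegrallyClosed.of_equiv (polyEquiv A₀.toSubring hx)

/-- The chart is a finite module over `A₀[x]` (elementwise form) and noetherian. -/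
theorem finite_and_noeth [CharZero K₀] (hV : IsVert A₀ ϖ₀ Ow E) (hx : IsCoord A₀ ϖ₀ Ow E x) :
    (∃ S : Finset F, (∀ e ∈ S, e ∈ chart A₀.toSubring x) ∧
      ∀ b ∈ chart A₀.toSubring x,
        b ∈ Submodule.span (polyRing A₀.toSubring x) (S : Set F)) ∧
    IsNoetherianRing (chart A₀.toSubring x) := by
  classical
  have h₀ := hV.unif₀
  have htr : Transcendental K₀ x := hx.transcendental h₀
  haveI : CharZero F := charZero_of_injective_algebraMap (algebraMap K₀ F).injective
  haveI : FiniteDimensional E F := hV.finite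
  set A : Subring F := polyRing A₀.toSubring x with hA
  set B : Subring F := chart A₀.toSubring x with hB
  have hAB : A ≤ B := polyRing_le_chart _ _
  have hAE : ∀ y ∈ A, y ∈ E := mem_of_mem_polyRing hx.adjoin_eq _
  letI iAB : Algebra A B := (Subring.inclusion hAB).toAlgebra
  letI iAE : Algebra A E := (RingHom.codRestrict A.subtype E (fun y => hAE y y.2)).toAlgebra
  haveI : IsScalarTower A B F := IsScalarTower.of_algebraMap_eq (fun _ => rfl)
  haveI : IsScalarTower A E F := IsScalarTower.of_algebraMap_eq (fun _ => rfl)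
  have injAE : Function.Injective (algebraMap A E) := fun a b h =>
    Subtype.ext (congrArg (fun e : E => (e : F)) h)
  haveI : CharZero E := ⟨fun a b h => Nat.cast_injective (R := F) (by
    have h1 := congrArg (algebraMap E F) h
    rwa [map_natCast, map_natCast] at h1)⟩
  haveI : Algebra.IsSeparable E F := inferInstance
  haveI : IsFractionRing A E := Nor.isFractionRing_of_exists injAE (fun y => by
    obtain ⟨a, ha, b, hb, hb0, e⟩ := exists_frac_polyRing h₀ hx.adjoin_eq y y.2
    exact ⟨⟨a, ha⟩, ⟨b, hb⟩, fun h => hb0 (congrArg Subtype.val h), Subtype.ext e⟩)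
  haveI : IsIntegrallyClosed A := isIntegrallyClosed_polyRing' htr
  haveI : IsNoetherianRing A := isNoetherianRing_polyRing' h₀ htr
  haveI : IsIntegralClosure B A F :=
    ⟨Subtype.val_injective, fun {z} => ⟨fun h => ⟨⟨z, h⟩, rfl⟩, by
      rintro ⟨b, rfl⟩
      exact b.2⟩⟩
  haveI hfin : Module.Finite A B := IsIntegralClosure.finite A E F B
  refine ⟨?_, IsNoetherianRing.of_finite A B⟩
  obtain ⟨s, hs⟩ := hfin.fg_top
  refine ⟨s.image Subtype.val, ?_, fun b hb => ?_⟩
  · intro e he
    obtain ⟨e', -, rfl⟩ := Finset.mem_image.mp he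
    exact e'.2
  · have hmem : (⟨b, hb⟩ : B) ∈ Submodule.span A (s : Set B) := hs ▸ Submodule.mem_top
    have key : ∀ z : B, z ∈ Submodule.span A (s : Set B) →
        (z : F) ∈ Submodule.span A ((s.image Subtype.val : Finset F) : Set F) := by
      intro z hz
      induction hz using Submodule.span_induction with
      | mem e he => exact Submodule.subset_span (by simpa using he)
      | zero => exact Submodule.zero_mem _
      | add a b _ _ ha hb => exact Submodule.add_mem _ ha hb
      | smul r z _ hz => exact Submodule.smul_mem _ r hz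
    exact key _ hmem

/-- a module generated by `S` over `A₀[x]` is generated over `A₀` by the `x ^ a * e`, `e ∈ S`. -/
theorem mem_span_pow_mul' (S₀ : Subring K₀) (S : Finset F) {y : F}
    (hy : y ∈ Submodule.span (polyRing S₀ x) (S : Set F)) :
    y ∈ Submodule.span (S₀.map (algebraMap K₀ F))
      {z : F | ∃ (a : ℕ) (e : F), e ∈ S ∧ z = x ^ a * e} := by
  set T : Submodule (S₀.map (algebraMap K₀ F)) F := Submodule.span (S₀.map (algebraMap K₀ F))
      {z : F | ∃ (a : ℕ) (e : F), e ∈ S ∧ z = x ^ a * e} with hT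
  have hxT : ∀ z ∈ T, x * z ∈ T := by
    intro z hz
    induction hz using Submodule.span_induction with
    | mem z hz =>
      obtain ⟨a, e, he, rfl⟩ := hz
      exact Submodule.subset_span ⟨a + 1, e, he, by ring⟩
    | zero => rw [mul_zero]; exact T.zero_mem
    | add a b _ _ ha hb => rw [mul_add]; exact T.add_mem ha hb
    | smul r z _ hz =>
      have : x * (r • z) = r • (x * z) := by
        rw [Subring.smul_def, Subring.smul_def, smul_eq_mul, smul_eq_mul]
        ring
      rw [this]
      exact T.smul_mem r hz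
  have hpow : ∀ (i : ℕ), ∀ z ∈ T, x ^ i * z ∈ T := by
    intro i
    induction i with
    | zero => intro z hz; rwa [pow_zero, one_mul]
    | succ i ih =>
      intro z hz
      rw [pow_succ', mul_assoc]
      exact hxT _ (ih z hz)
  have hr : ∀ r ∈ polyRing S₀ x, ∀ z ∈ T, r * z ∈ T := by
    intro r hr z hz
    obtain ⟨p, hp, rfl⟩ := (mem_polyRing_iff _ _ _).mp hr
    rw [aeval_eq_sum_range, Finset.sum_mul]
    refine T.sum_mem fun i _ => ?_
    have hc : algebraMap K₀ F (p.coeff i) ∈ S₀.map (algebraMap K₀ F) :=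
      Subring.mem_map.mpr ⟨_, hp i, rfl⟩
    have : p.coeff i • x ^ i * z
        = (⟨_, hc⟩ : S₀.map (algebraMap K₀ F)) • (x ^ i * z) := by
      rw [Subring.smul_def, smul_eq_mul, Algebra.smul_def, mul_assoc]
    rw [this]
    exact T.smul_mem _ (hpow i z hz)
  induction hy using Submodule.span_induction with
  | mem e he => exact Submodule.subset_span ⟨0, e, he, by simp⟩
  | zero => exact T.zero_mem
  | add a b _ _ ha hb => exact T.add_mem ha hb
  | smul r z _ hz => exact hr r.1 r.2 z hz

end ChartFinite

/-- the chart is a finite module over `A₀[x]`, with generators in the chart. -/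
theorem chart_fin [CharZero K₀] (hV : IsVert A₀ ϖ₀ Ow E) (hx : IsCoord A₀ ϖ₀ Ow E x) :
    ∃ S : Finset F, (∀ e ∈ S, e ∈ chart A₀.toSubring x) ∧
      ∀ b ∈ chart A₀.toSubring x, b ∈ Submodule.span (A₀.toSubring.map (algebraMap K₀ F))
        {y : F | ∃ (a : ℕ) (e : F), e ∈ S ∧ y = x ^ a * e} := by
  obtain ⟨⟨S, hS, hspan⟩, -⟩ := ChartFinite.finite_and_noeth hV hx
  exact ⟨S, hS, fun b hb => ChartFinite.mem_span_pow_mul' _ S (hspan b hb)⟩

theorem chart_noeth [CharZero K₀] (hV : IsVert A₀ ϖ₀ Ow E) (hx : IsCoord A₀ ϖ₀ Ow E x) :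
    IsNoetherianRing (chart A₀.toSubring x) :=
  (ChartFinite.finite_and_noeth hV hx).2

end Fermat.Agent.S18
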