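/-
KL-A, block CHART, node CH2: the chart `chart A₀ x` (integral closure of `A₀[x]`) is the
intersection of `Ow` with the generic chart `chart ⊤ x` (integral closure of `K₀[x]`).
-/
import Mathlib
import Fermat.Agent.S18.Defs
import Fermat.Agent.S18.Chart.Unif
import Fermat.Agent.S18.Chart.Const
import Fermat.Agent.S18.Chart.Coord

set_option autoImplicit false

noncomputable section

namespace Fermat.Agent.S18

open Polynomial IntermediateField

variable {K₀ F : Type*} [Field K₀] [Field F] [Algebra K₀ F]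
variable {A₀ : ValuationSubring K₀} {ϖ₀ : K₀} {Ow : ValuationSubring F}
variable {E : IntermediateField K₀ F} {x : F}

/-- `A₀[x] ⊆ Ow`. -/
theorem polyRing_le_Ow (hV : IsVert A₀ ϖ₀ Ow E) (hx : IsCoord A₀ ϖ₀ Ow E x) :
    ∀ b ∈ polyRing A₀.toSubring x, b ∈ Ow := by
  intro b hb
  rw [mem_polyRing_iff] at hb
  obtain ⟨p, hp, rfl⟩ := hb
  rw [aeval_eq_sum_range]
  refine Ow.sum_mem fun i _ => ?_
  rw [Algebra.smul_def]
  exact Ow.mul_mem _ _ (hV.const_mem _ (hp i)) (Ow.pow_mem hx.mem i)

/-- An element of `F` which is integral over a ring whose image lies in `Ow` lies in `Ow`. -/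
theorem mem_Ow_of_isIntegral {R : Type*} [CommRing R] [Algebra R F]
    (h : ∀ r : R, algebraMap R F r ∈ Ow) {z : F} (hz : IsIntegral R z) : z ∈ Ow := by
  have h1 : IsIntegral Ow z :=
    isIntegral_of_forall_exists_algebraMap (fun r => ⟨⟨_, h r⟩, rfl⟩) hz
  obtain ⟨y, rfl⟩ := (IsIntegrallyClosed.isIntegral_iff (R := Ow) (K := F)).mp h1
  exact y.2

theorem chart_le (hV : IsVert A₀ ϖ₀ Ow E) (hx : IsCoord A₀ ϖ₀ Ow E x) :
    ∀ b ∈ chart A₀.toSubring x, b ∈ Ow := by
  intro b hb
  rw [mem_chart_iff_isIntegral] at hb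
  exact mem_Ow_of_isIntegral (fun r => polyRing_le_Ow hV hx r.1 r.2) hb

/-- The coefficients of the minimal polynomial over `E` of an element of `Ow` lie in `Ow`. -/
theorem coeff_minpoly_mem_Ow (hV : IsVert A₀ ϖ₀ Ow E) {z : F} (hz : z ∈ Ow) (i : ℕ) :
    ((minpoly E z).coeff i : F) ∈ Ow := by
  let Ov : ValuationSubring E := Ow.comap (algebraMap E F)
  let _ : Algebra Ov F := ((algebraMap E F).comp Ov.subtype).toAlgebra
  have : IsScalarTower Ov E F := IsScalarTower.of_algebraMap_eq fun _ => rfl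
  obtain ⟨p, hpm, hpc, hpz⟩ := hV.integral z hz
  have hint : IsIntegral Ov z := by
    have hl : p ∈ Polynomial.lifts (algebraMap Ov E) := by
      rw [Polynomial.lifts_iff_coeff_lifts]
      intro j
      exact ⟨⟨p.coeff j, hpc j⟩, rfl⟩
    obtain ⟨q, hq, -, hqm⟩ := Polynomial.lifts_and_natDegree_eq_and_monic hl hpm
    refine ⟨q, hqm, ?_⟩
    have h1 : eval₂ (algebraMap Ov F) z q = eval₂ (algebraMap E F) z (q.map (algebraMap Ov E)) := by
      rw [eval₂_map, ← IsScalarTower.algebraMap_eq]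
    rw [h1, hq]
    exact hpz
  rw [minpoly.isIntegrallyClosed_eq_field_fractions' E hint, coeff_map]
  exact ((minpoly Ov z).coeff i).2

theorem mem_chart_iff (hV : IsVert A₀ ϖ₀ Ow E) (hx : IsCoord A₀ ϖ₀ Ow E x) (z : F) :
    z ∈ chart A₀.toSubring x ↔ z ∈ Ow ∧ z ∈ chart (⊤ : Subring K₀) x := by
  constructor
  · intro hz
    exact ⟨chart_le hV hx z hz, chart_mono le_top x hz⟩
  · rintro ⟨hzO, hzK⟩
    have hxT : Transcendental K₀ x := hx.transcendental hV.unif₀
    have hz1 : IsIntegral (Algebra.adjoin K₀ {x}) z := isIntegral_adjoin_of_mem_chart_top hzK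
    have := hV.finite
    have hzE : IsIntegral E z := Algebra.IsIntegral.isIntegral z
    have hcoeff : ∀ i, ((minpoly E z).coeff i : F) ∈ polyRing A₀.toSubring x := by
      intro i
      have ha := coeff_minpoly_mem_adjoin hxT hz1 E hx.adjoin_eq.symm i
      have hb := coeff_minpoly_mem_Ow hV hzO i
      rw [Algebra.adjoin_singleton_eq_range_aeval] at ha
      obtain ⟨p, hp⟩ := ha
      have hp' : aeval x p = ((minpoly E z).coeff i : F) := hp
      rw [mem_polyRing_iff]
      refine ⟨p, ?_, hp'⟩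
      exact IsCoord.gauss hV.unif hV.const_mem hV.unif₀ hx p (hp' ▸ hb)
    rw [mem_chart_iff_isIntegral]
    have hl : (minpoly E z).map (algebraMap E F) ∈
        Polynomial.lifts (algebraMap (polyRing A₀.toSubring x) F) := by
      rw [Polynomial.lifts_iff_coeff_lifts]
      intro i
      rw [coeff_map]
      exact ⟨⟨_, hcoeff i⟩, rfl⟩
    obtain ⟨q, hq, -, hqm⟩ :=
      Polynomial.lifts_and_natDegree_eq_and_monic hl ((minpoly.monic hzE).map _)
    refine ⟨q, hqm, ?_⟩
    rw [← eval_map, hq, eval_map]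
    exact minpoly.aeval E z

end Fermat.Agent.S18
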