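/-
KL-A, block CHART, node KLA-CH3 (task 1107, helper198):
the uniformiser is in the chart, the `q`-expansion principle for the chart, `Ow` is a localisation
of the chart, and scaling of `RootData` from the generic chart to the integral chart.
-/
import Mathlib
import Fermat.Agent.S18.Defs
import Fermat.Agent.S18.Chart.Unif
import Fermat.Agent.S18.Chart.Const
import Fermat.Agent.S18.Chart.Coord
import Fermat.Agent.S18.Chart.Mem

set_option autoImplicit false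

noncomputable section

namespace Fermat.Agent.S18

open Polynomial IntermediateField

variable {K₀ F : Type*} [Field K₀] [Field F] [Algebra K₀ F]
variable {A₀ : ValuationSubring K₀} {ϖ₀ : K₀} {Ow : ValuationSubring F}
variable {E : IntermediateField K₀ F} {x : F}

namespace ChartBasic

/-- constants are in the generic chart. -/
theorem const_mem_chart_top (c : K₀) : algebraMap K₀ F c ∈ chart (⊤ : Subring K₀) x :=
  polyRing_le_chart _ _
    ((mem_polyRing_iff _ x _).mpr ⟨C c, fun _ => Subring.mem_top _, aeval_C x c⟩)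

/-- values of integral polynomials are in the integral chart. -/
theorem aeval_mem_chart (p : K₀[X]) (hp : ∀ i, p.coeff i ∈ A₀) :
    aeval x p ∈ chart A₀.toSubring x :=
  polyRing_le_chart _ _ ((mem_polyRing_iff _ x _).mpr ⟨p, hp, rfl⟩)

open IntermediateField.algebraAdjoinAdjoin in
/-- every element of `F` has a nonzero multiple by an element of `K₀[x]` in the generic chart. -/
theorem exists_mul_mem_chart_top (hfin : FiniteDimensional E F) (hE : K₀⟮x⟯ = E) (y : F) :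
    ∃ q : K₀[X], aeval x q ≠ 0 ∧ aeval x q * y ∈ chart (⊤ : Subring K₀) x := by
  subst hE
  have h1 : IsAlgebraic K₀⟮x⟯ y := (Algebra.IsIntegral.isIntegral (R := K₀⟮x⟯) y).isAlgebraic
  have h2 : IsAlgebraic (Algebra.adjoin K₀ {x}) y :=
    (IsFractionRing.isAlgebraic_iff (Algebra.adjoin K₀ {x}) K₀⟮x⟯ F).mpr h1
  obtain ⟨r, hr0, hr⟩ := h2.exists_integral_multiple
  obtain ⟨q, hq⟩ : ∃ q : K₀[X], aeval x q = (r : F) := by
    obtain ⟨r, hr'⟩ := r
    rw [Algebra.adjoin_singleton_eq_range_aeval] at hr'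
    exact hr'
  refine ⟨q, ?_, ?_⟩
  · rw [hq]
    exact fun h => hr0 (Subtype.ext h)
  · rw [mem_chart_iff_isIntegral, hq]
    exact isIntegral_of_forall_exists_algebraMap
      (fun s => ⟨⟨s.1, (mem_polyRing_top_iff x s.1).mpr s.2⟩, rfl⟩) hr

/-- `chart_qep`, from the description of the integral chart. -/
theorem qep_aux
    (hmem : ∀ z : F, z ∈ chart A₀.toSubring x ↔ z ∈ Ow ∧ z ∈ chart (⊤ : Subring K₀) x) :
    ∀ b ∈ chart A₀.toSubring x, b / algebraMap K₀ F ϖ₀ ∈ Ow →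
      b / algebraMap K₀ F ϖ₀ ∈ chart A₀.toSubring x := by
  intro b hb hbw
  rw [hmem]
  refine ⟨hbw, ?_⟩
  rw [div_eq_mul_inv, ← map_inv₀]
  exact mul_mem ((hmem b).mp hb).2 (const_mem_chart_top _)

/-- `chart_loc`, from the description of the integral chart. -/
theorem loc_aux (hV : IsVert A₀ ϖ₀ Ow E) (hx : IsCoord A₀ ϖ₀ Ow E x)
    (hmem : ∀ z : F, z ∈ chart A₀.toSubring x ↔ z ∈ Ow ∧ z ∈ chart (⊤ : Subring K₀) x) :
    ∀ y ∈ Ow, ∃ b ∈ chart A₀.toSubring x, b ≠ 0 ∧ b⁻¹ ∈ Ow ∧ b * y ∈ chart A₀.toSubring x := by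
  intro y hy
  obtain ⟨q, hq0, hq⟩ := exists_mul_mem_chart_top hV.finite hx.adjoin_eq y
  have hq' : q ≠ 0 := by
    rintro rfl
    exact hq0 (map_zero _)
  obtain ⟨n, p, hqp, h1, h2⟩ := IsCoord.exists_primitive hV.unif₀ q hq'
  obtain ⟨hu1, hu2⟩ := hx.unit_of_primitive hV.unif hV.const_mem hV.unif₀ p h1 h2
  have hϖ := hV.unif₀.ne_zero
  have hp0 : aeval x p ≠ 0 := by
    intro h
    apply hq0
    rw [hqp, map_mul, h, mul_zero]
  refine ⟨aeval x p, aeval_mem_chart p h1, hp0, hu2, ?_⟩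
  rw [hmem]
  refine ⟨mul_mem hu1 hy, ?_⟩
  have h3 : aeval x p * y = algebraMap K₀ F (ϖ₀ ^ (-n)) * (aeval x q * y) := by
    rw [hqp, map_mul, aeval_C, ← mul_assoc, ← mul_assoc, ← map_mul, ← zpow_add₀ hϖ,
      neg_add_cancel, zpow_zero, map_one, one_mul]
  rw [h3]
  exact mul_mem (const_mem_chart_top _) hq

/-- a common power of the uniformiser clears the denominators of a finite family. -/
theorem exists_pow_mul_mem_forall {ϖ : F} (hw : IsUnif Ow ϖ) {n : ℕ} (a : Fin n → F) :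
    ∃ r : ℕ, ∀ k, ϖ ^ r * a k ∈ Ow := by
  choose r hr using fun k => hw.exists_pow_mul_mem (a k)
  refine ⟨Finset.univ.sup r, fun k => ?_⟩
  obtain ⟨j, hj⟩ := Nat.exists_eq_add_of_le (Finset.le_sup (f := r) (Finset.mem_univ k))
  rw [hj, pow_add, mul_comm (ϖ ^ r k), mul_assoc]
  exact mul_mem (pow_mem hw.mem j) (hr k)

/-- `rootData_chart`, from the description of the integral chart. -/
theorem rootData_aux (hV : IsVert A₀ ϖ₀ Ow E)
    (hmem : ∀ z : F, z ∈ chart A₀.toSubring x ↔ z ∈ Ow ∧ z ∈ chart (⊤ : Subring K₀) x)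
    {m : ℕ} {h : F} (hh : h ∈ Ow) (hh' : h⁻¹ ∈ Ow)
    (r : RootData (chart (⊤ : Subring K₀) x) 1 m h) :
    RootData (chart A₀.toSubring x) (algebraMap K₀ F ϖ₀) m h := by
  obtain ⟨n, s, a, a', ha, ha', hsum⟩ := r
  obtain ⟨r₁, h₁⟩ := exists_pow_mul_mem_forall hV.unif a
  obtain ⟨r₂, h₂⟩ := exists_pow_mul_mem_forall hV.unif a'
  refine ⟨n, r₁ + r₂, fun k => algebraMap K₀ F ϖ₀ ^ r₁ * a k,
    fun k => algebraMap K₀ F ϖ₀ ^ r₂ * a' k, fun k => ?_, fun k => ?_, ?_⟩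
  · rw [hmem]
    refine ⟨mul_mem (pow_mem (h₁ k) m) hh, ?_⟩
    rw [mul_pow, mul_assoc]
    exact mul_mem (pow_mem (pow_mem (const_mem_chart_top ϖ₀) _) _) (ha k)
  · rw [hmem]
    refine ⟨mul_mem (pow_mem (h₂ k) m) hh', ?_⟩
    rw [mul_pow, mul_assoc]
    exact mul_mem (pow_mem (pow_mem (const_mem_chart_top ϖ₀) _) _) (ha' k)
  · have h3 : ∀ k, algebraMap K₀ F ϖ₀ ^ r₁ * a k * (algebraMap K₀ F ϖ₀ ^ r₂ * a' k) =
        algebraMap K₀ F ϖ₀ ^ (r₁ + r₂) * (a k * a' k) := fun k => by ring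
    rw [Finset.sum_congr rfl fun k _ => h3 k, ← Finset.mul_sum, hsum, one_pow, mul_one]

end ChartBasic

open ChartBasic

theorem unif_mem_chart (hV : IsVert A₀ ϖ₀ Ow E) : algebraMap K₀ F ϖ₀ ∈ chart A₀.toSubring x := by
  rw [← aeval_C x ϖ₀]
  refine aeval_mem_chart _ fun i => ?_
  rw [coeff_C]
  split_ifs
  · exact hV.unif₀.mem
  · exact A₀.zero_mem

theorem chart_qep (hV : IsVert A₀ ϖ₀ Ow E) (hx : IsCoord A₀ ϖ₀ Ow E x) :
    ∀ b ∈ chart A₀.toSubring x, b / algebraMap K₀ F ϖ₀ ∈ Ow →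
      b / algebraMap K₀ F ϖ₀ ∈ chart A₀.toSubring x :=
  qep_aux (mem_chart_iff hV hx)

theorem chart_loc (hV : IsVert A₀ ϖ₀ Ow E) (hx : IsCoord A₀ ϖ₀ Ow E x) :
    ∀ y ∈ Ow, ∃ b ∈ chart A₀.toSubring x, b ≠ 0 ∧ b⁻¹ ∈ Ow ∧ b * y ∈ chart A₀.toSubring x :=
  loc_aux hV hx (mem_chart_iff hV hx)

theorem rootData_chart (hV : IsVert A₀ ϖ₀ Ow E) (hx : IsCoord A₀ ϖ₀ Ow E x) {m : ℕ} {h : F}
    (hh : h ∈ Ow) (hh' : h⁻¹ ∈ Ow) (r : RootData (chart (⊤ : Subring K₀) x) 1 m h) :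
    RootData (chart A₀.toSubring x) (algebraMap K₀ F ϖ₀) m h :=
  rootData_aux hV (mem_chart_iff hV hx) hh hh' r

end Fermat.Agent.S18
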