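/-
KL-A, block CHART, node KLA-CH5: overlap of the charts of `x` and `x⁻¹`; small facts for `IsCover`.
Owner: helper233.
-/
import Mathlib
import Fermat.Agent.S18.Defs
import Fermat.Agent.S18.Chart.Unif
import Fermat.Agent.S18.Chart.Const
import Fermat.Agent.S18.Chart.DedUnif

set_option autoImplicit false

noncomputable section

namespace Fermat.Agent.S18

open Polynomial IntermediateField

variable {K₀ F : Type*} [Field K₀] [Field F] [Algebra K₀ F]
variable {A₀ : ValuationSubring K₀} {ϖ₀ : K₀} {Ow : ValuationSubring F}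
variable {E : IntermediateField K₀ F} {x : F}

theorem Overlap.algebraMap_mem_polyRing (S : Subring K₀) (y : F) {a : K₀} (ha : a ∈ S) :
    algebraMap K₀ F a ∈ polyRing S y := by
  rw [mem_polyRing_iff]
  refine ⟨C a, fun i => ?_, by simp⟩
  rw [coeff_C]
  split_ifs
  · exact ha
  · exact S.zero_mem

theorem Overlap.self_mem_polyRing (S : Subring K₀) (y : F) : y ∈ polyRing S y := by
  rw [mem_polyRing_iff]
  refine ⟨X, fun i => ?_, by simp⟩
  rw [coeff_X]
  split_ifs
  · exact S.one_mem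
  · exact S.zero_mem

/-- `x⁻¹ ^ M * c ∈ S[x⁻¹]` for `c ∈ S[x]` and `M` large. -/
theorem Overlap.exists_forall_inv_pow_mul_mem (S : Subring K₀) (hx0 : x ≠ 0) {c : F}
    (hc : c ∈ polyRing S x) : ∃ N : ℕ, ∀ M : ℕ, N ≤ M → x⁻¹ ^ M * c ∈ polyRing S x⁻¹ := by
  rw [mem_polyRing_iff] at hc
  obtain ⟨p, hp, rfl⟩ := hc
  refine ⟨p.natDegree, fun M hM => ?_⟩
  rw [aeval_eq_sum_range, Finset.mul_sum]
  refine Subring.sum_mem _ fun i hi => ?_
  have hi' : i ≤ M := by
    have := Finset.mem_range.mp hi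
    omega
  have h1 : x⁻¹ ^ M * p.coeff i • x ^ i = algebraMap K₀ F (p.coeff i) * x⁻¹ ^ (M - i) := by
    obtain ⟨k, rfl⟩ := Nat.exists_eq_add_of_le hi'
    rw [Nat.add_sub_cancel_left, Algebra.smul_def, pow_add, inv_pow, inv_pow]
    field_simp
  rw [h1]
  exact Subring.mul_mem _ (Overlap.algebraMap_mem_polyRing S _ (hp i))
    (Subring.pow_mem _ (Overlap.self_mem_polyRing S _) _)

theorem chart_overlap (S : Subring K₀) (hx0 : x ≠ 0) :
    ∀ b ∈ chart S x, ∃ N : ℕ, x⁻¹ ^ N * b ∈ chart S x⁻¹ := by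
  intro b hb
  rw [mem_chart_iff_isIntegral] at hb
  obtain ⟨p, hp, hpb⟩ := hb
  -- a uniform exponent for all the coefficients
  have hN : ∃ N : ℕ, ∀ i : ℕ, ∀ M : ℕ, N ≤ M → x⁻¹ ^ M * (p.coeff i : F) ∈ polyRing S x⁻¹ := by
    choose f hf using fun i : ℕ =>
      Overlap.exists_forall_inv_pow_mul_mem (x := x) S hx0 (p.coeff i).2
    refine ⟨(Finset.range (p.natDegree + 1)).sup f, fun i M hM => ?_⟩
    by_cases hi : i ≤ p.natDegree
    · exact hf i M ((Finset.le_sup (f := f) (Finset.mem_range.mpr (by omega))).trans hM)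
    · rw [coeff_eq_zero_of_natDegree_lt (by omega)]
      simp
  obtain ⟨N, hN⟩ := hN
  refine ⟨N, ?_⟩
  rw [mem_chart_iff_isIntegral]
  set P : F[X] := p.map (algebraMap (polyRing S x) F) with hP
  have hPm : P.Monic := hp.map _
  have hPdeg : P.natDegree = p.natDegree := hp.natDegree_map _
  have hPb : P.eval b = 0 := by
    rw [hP, eval_map]; exact hpb
  set Q : F[X] := scaleRoots P (x⁻¹ ^ N) with hQ
  have hQm : Q.Monic := (monic_scaleRoots_iff _).mpr hPm
  have hQb : Q.eval (x⁻¹ ^ N * b) = 0 := by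
    have h := scaleRoots_eval₂_eq_zero (p := P) (RingHom.id F) (r := b) (s := x⁻¹ ^ N)
      (by rw [eval₂_id]; exact hPb)
    rw [eval₂_id, RingHom.id_apply] at h
    exact h
  have hl : Q ∈ Polynomial.lifts (algebraMap (polyRing S x⁻¹) F) := by
    rw [Polynomial.lifts_iff_coeff_lifts]
    intro i
    have hmem : Q.coeff i ∈ polyRing S x⁻¹ := by
      rw [hQ, coeff_scaleRoots, hP, coeff_map, ← hP, hPdeg]
      rcases lt_trichotomy i p.natDegree with hi | hi | hi
      · have h2 := hN i (N * (p.natDegree - i)) (Nat.le_mul_of_pos_right _ (by omega))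
        rw [← pow_mul, mul_comm]
        exact h2
      · subst hi
        have : p.coeff p.natDegree = 1 := hp
        rw [this]
        simp
      · rw [coeff_eq_zero_of_natDegree_lt hi]
        simp
    exact ⟨⟨_, hmem⟩, rfl⟩
  obtain ⟨q, hq, -, hqm⟩ := Polynomial.lifts_and_natDegree_eq_and_monic hl hQm
  refine ⟨q, hqm, ?_⟩
  rw [← eval_map, hq]
  exact hQb

theorem isNoetherianRing_map (h₀ : IsUnif A₀ ϖ₀) :
    IsNoetherianRing (A₀.toSubring.map (algebraMap K₀ F)) := by
  have hdvr : IsDiscreteValuationRing A₀ := h₀.isDiscreteValuationRing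
  have hn : IsNoetherianRing A₀ := inferInstance
  let g : A₀ →+* (A₀.toSubring.map (algebraMap K₀ F)) :=
    RingHom.codRestrict ((algebraMap K₀ F).comp A₀.subtype) (A₀.toSubring.map (algebraMap K₀ F))
      (fun a => ⟨a, a.2, rfl⟩)
  have hg : Function.Surjective g := by
    rintro ⟨_, a, ha, rfl⟩
    exact ⟨⟨a, ha⟩, rfl⟩
  exact isNoetherianRing_of_surjective A₀ _ g hg

theorem map_le_chart (S : Subring K₀) : S.map (algebraMap K₀ F) ≤ chart S x := by
  rintro _ ⟨a, ha, rfl⟩
  exact polyRing_le_chart S x (Overlap.algebraMap_mem_polyRing S x ha)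

theorem self_mem_chart (S : Subring K₀) : x ∈ chart S x :=
  polyRing_le_chart S x (Overlap.self_mem_polyRing S x)

end Fermat.Agent.S18
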