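/-
KL-A, block CHART (assembly, helper289): `isCover_chart`.
-/
import Mathlib
import Fermat.Agent.S18.Defs
import Fermat.Agent.S18.Chart.Unif
import Fermat.Agent.S18.Chart.Const
import Fermat.Agent.S18.Chart.Coord
import Fermat.Agent.S18.Chart.Finite
import Fermat.Agent.S18.Chart.Overlap

set_option autoImplicit false

noncomputable section

namespace Fermat.Agent.S18

open Polynomial IntermediateField

variable {K₀ F : Type*} [Field K₀] [Field F] [Algebra K₀ F]
variable {A₀ : ValuationSubring K₀} {ϖ₀ : K₀} {Ow : ValuationSubring F}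
variable {E : IntermediateField K₀ F} {x : F}

theorem isCover_chart [CharZero K₀] (hV : IsVert A₀ ϖ₀ Ow E) (hx : IsCoord A₀ ϖ₀ Ow E x)
    (hx' : IsCoord A₀ ϖ₀ Ow E x⁻¹) :
    IsCover (A₀.toSubring.map (algebraMap K₀ F)) x (chart A₀.toSubring x)
      (chart A₀.toSubring x⁻¹) where
  noeth := isNoetherianRing_map hV.unif₀
  le₁ := map_le_chart _
  le₂ := map_le_chart _
  x_ne := fun h => (hx.transcendental hV.unif₀) (h ▸ isAlgebraic_zero)
  x_mem := self_mem_chart _
  inv_mem := self_mem_chart _
  fin₁ := chart_fin hV hx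
  fin₂ := chart_fin hV hx'
  overlap₁ := chart_overlap _ (fun h => (hx.transcendental hV.unif₀) (h ▸ isAlgebraic_zero))
  overlap₂ := by
    have hx0 : x ≠ 0 := fun h => (hx.transcendental hV.unif₀) (h ▸ isAlgebraic_zero)
    have := chart_overlap (x := x⁻¹) A₀.toSubring (inv_ne_zero hx0)
    simpa using this

end Fermat.Agent.S18

end
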