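/-
KL-A, block CHART, node KLA-CH1 (helper174): the vertical hypotheses `IsVert` pass from a subfield
`E` to a bigger subfield `E'`.
-/
import Mathlib
import Fermat.Agent.S18.Defs
import Fermat.Agent.S18.Chart.Unif
import Fermat.Agent.S18.Vert.TraceAbs

set_option autoImplicit false

noncomputable section

namespace Fermat.Agent.S18

open Polynomial IntermediateField

namespace MonoAux

/-- a monic polynomial with coefficients in `V` gives integrality over `V ∩ E`. -/
theorem isIntegralElem_of_poly {E F : Type*} [Field E] [Field F] [Algebra E F]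
    (V : ValuationSubring F) (y : F)
    (h : ∃ p : E[X], p.Monic ∧ (∀ i, algebraMap E F (p.coeff i) ∈ V) ∧ aeval y p = 0) :
    ((algebraMap E F).comp (V.comap (algebraMap E F)).subtype).IsIntegralElem y := by
  obtain ⟨p, hp, hc, hy⟩ := h
  have hl : p ∈ Polynomial.lifts (V.comap (algebraMap E F)).subtype := by
    rw [Polynomial.lifts_iff_coeff_lifts]
    intro n
    exact ⟨⟨p.coeff n, hc n⟩, rfl⟩
  obtain ⟨q, hq, -, hqm⟩ := Polynomial.lifts_and_natDegree_eq_and_monic hl hp
  refine ⟨q, hqm, ?_⟩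
  rw [← Polynomial.eval₂_map, hq]
  exact hy

/-- a trace-one element over `E` produces a trace-one element over `E' ⊇ E`. -/
theorem exists_trace_one_of_tower {E E' F : Type*} [Field E] [Field E'] [Field F] [Algebra E E']
    [Algebra E F] [Algebra E' F] [IsScalarTower E E' F] [FiniteDimensional E F]
    (V : ValuationSubring F) (ϖ : E) (hϖ : IsUnif V (algebraMap E F ϖ))
    (hint : ∀ y ∈ V, ((algebraMap E F).comp (V.comap (algebraMap E F)).subtype).IsIntegralElem y)
    (y₀ : F) (hy₀ : y₀ ∈ V) (htr : Algebra.trace E F y₀ = 1) :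
    ∃ y ∈ V, Algebra.trace E' F y = 1 := by
  have : FiniteDimensional E' F := FiniteDimensional.right E E' F
  obtain ⟨y₁, hy₁, hno⟩ := Vert.exists_trace_not_mem (E₁ := E) (E₂ := E') (E₃ := F) (E₄ := F) V hint
    ϖ hϖ.inv_notMem y₀ hy₀ htr
  have hy₁' : y₁ ∈ V := hy₁
  set t : E' := Algebra.trace E' F y₁ with ht
  have htV : algebraMap E' F t ∈ V :=
    Vert.trace_mem_comap V y₁ (Vert.isIntegralElem_comap_of_tower V y₁ (hint y₁ hy₁'))
  have hϖ0 := hϖ.ne_zero
  have htinv : (algebraMap E' F t)⁻¹ ∈ V := by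
    by_contra hcon
    refine hno ⟨algebraMap E' F t / algebraMap E F ϖ, hϖ.div_mem htV hcon, ?_⟩
    field_simp
  have ht0 : t ≠ 0 := by
    intro h0
    exact hno ⟨0, V.zero_mem, by rw [h0, map_zero, mul_zero]⟩
  refine ⟨t⁻¹ • y₁, ?_, ?_⟩
  · rw [Algebra.smul_def, map_inv₀]
    exact V.mul_mem _ _ htinv hy₁'
  · rw [map_smul, ← ht, smul_eq_mul, inv_mul_cancel₀ ht0]

end MonoAux

variable {K₀ F : Type*} [Field K₀] [Field F] [Algebra K₀ F]
variable {A₀ : ValuationSubring K₀} {ϖ₀ : K₀} {Ow : ValuationSubring F}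
variable {E : IntermediateField K₀ F} {x : F}

/-! ### KLA-CH1  `Chart/Mono.lean` -/

theorem IsVert.mono (hV : IsVert A₀ ϖ₀ Ow E) {E' : IntermediateField K₀ F} (h : E ≤ E') :
    IsVert A₀ ϖ₀ Ow E' := by
  letI : Algebra E E' := (IntermediateField.inclusion h).toRingHom.toAlgebra
  haveI : IsScalarTower E E' F := IsScalarTower.of_algebraMap_eq fun _ => rfl
  haveI : FiniteDimensional E F := hV.finite
  have hint : ∀ y ∈ Ow,
      ((algebraMap E F).comp (Ow.comap (algebraMap E F)).subtype).IsIntegralElem y :=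
    fun y hy => MonoAux.isIntegralElem_of_poly Ow y (hV.integral y hy)
  refine ⟨hV.unif₀, hV.unif, hV.const_mem, FiniteDimensional.right E E' F, ?_, ?_⟩
  · intro y hy
    obtain ⟨p, hp, hc, hpy⟩ := hV.integral y hy
    refine ⟨p.map (algebraMap E E'), hp.map _, fun i => ?_, ?_⟩
    · rw [Polynomial.coeff_map]
      exact hc i
    · rw [Polynomial.aeval_map_algebraMap]
      exact hpy
  · obtain ⟨y₀, hy₀, htr⟩ := hV.sep
    exact MonoAux.exists_trace_one_of_tower (E := E) (E' := E') Ow (algebraMap K₀ E ϖ₀) hV.unif hint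
      y₀ hy₀ htr

end Fermat.Agent.S18

end
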