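/-
KL-A, block CHART/Ded, task KLA-DED-P3 (owner of this file: helper267).
`ϖ` is prime in `A₀[x]`, `A₀[x]/ϖ ≅ k[X]` is a PID, and squarefreeness modulo `ϖ`.
Self-contained (only uses `Chart/Unif`, `Chart/Const`).
-/
import Mathlib
import Fermat.Agent.S18.Defs
import Fermat.Agent.S18.Chart.Unif
import Fermat.Agent.S18.Chart.Const

set_option autoImplicit false

noncomputable section

namespace Fermat.Agent.S18

open Polynomial IntermediateField

variable {K₀ F : Type*} [Field K₀] [Field F] [Algebra K₀ F]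
variable {A₀ : ValuationSubring K₀} {ϖ₀ : K₀} {Ow : ValuationSubring F}
variable {E : IntermediateField K₀ F} {x : F}

namespace DedPolyQuot

/-- divisibility by the uniformiser in `A₀`. -/
theorem dvd_iff (h₀ : IsUnif A₀ ϖ₀) (a : A₀) :
    (⟨ϖ₀, h₀.mem⟩ : A₀) ∣ a ↔ (a : K₀) / ϖ₀ ∈ A₀ := by
  have hϖ := h₀.ne_zero
  constructor
  · rintro ⟨c, rfl⟩
    have : (((⟨ϖ₀, h₀.mem⟩ : A₀) * c : A₀) : K₀) / ϖ₀ = c := by
      show ϖ₀ * (c : K₀) / ϖ₀ = c
      field_simp
    rw [this]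
    exact c.2
  · intro h
    refine ⟨⟨_, h⟩, Subtype.ext ?_⟩
    show (a : K₀) = ϖ₀ * ((a : K₀) / ϖ₀)
    field_simp

theorem isUnit_iff (a : A₀) (ha : a ≠ 0) : IsUnit a ↔ (a : K₀)⁻¹ ∈ A₀ := by
  have ha0 : (a : K₀) ≠ 0 := fun h => ha (Subtype.ext h)
  constructor
  · intro h
    obtain ⟨b, hb⟩ := isUnit_iff_exists_inv.mp h
    have hb' : (a : K₀) * (b : K₀) = 1 := congrArg Subtype.val hb
    rw [← eq_inv_of_mul_eq_one_right hb']
    exact b.2
  · intro h
    exact isUnit_iff_exists_inv.mpr ⟨⟨_, h⟩, Subtype.ext (mul_inv_cancel₀ ha0)⟩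

theorem maximalIdeal_eq (h₀ : IsUnif A₀ ϖ₀) :
    IsLocalRing.maximalIdeal A₀ = Ideal.span {(⟨ϖ₀, h₀.mem⟩ : A₀)} := by
  ext a
  rw [IsLocalRing.mem_maximalIdeal, mem_nonunits_iff, Ideal.mem_span_singleton, dvd_iff h₀]
  rcases eq_or_ne a 0 with rfl | ha
  · simp [A₀.zero_mem]
  rw [isUnit_iff a ha]
  have ha0 : (a : K₀) ≠ 0 := fun h => ha (Subtype.ext h)
  exact ⟨fun h => h₀.div_mem a.2 h, fun h => h₀.not_both ha0 h⟩

theorem prime_unif (h₀ : IsUnif A₀ ϖ₀) : Prime (⟨ϖ₀, h₀.mem⟩ : A₀) := by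
  have hne : (⟨ϖ₀, h₀.mem⟩ : A₀) ≠ 0 := fun h => h₀.ne_zero (congrArg Subtype.val h)
  rw [← Ideal.span_singleton_prime hne, ← maximalIdeal_eq h₀]
  exact (IsLocalRing.maximalIdeal.isMaximal A₀).isPrime

variable (A₀ x) in
/-- the defining homomorphism `A₀[X] → F`. -/
def toF : A₀[X] →+* F :=
  (Polynomial.aeval x : K₀[X] →ₐ[K₀] F).toRingHom.comp (Polynomial.mapRingHom A₀.subtype)

theorem toF_apply (p : A₀[X]) : toF A₀ x p = aeval x (p.map A₀.subtype) := rfl

theorem toF_mem (p : A₀[X]) : toF A₀ x p ∈ polyRing A₀.toSubring x :=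
  (mem_polyRing_iff _ _ _).mpr ⟨p.map A₀.subtype, fun i => by
    rw [coeff_map]; exact (p.coeff i).2, rfl⟩

theorem toF_injective (hx : Transcendental K₀ x) : Function.Injective (toF A₀ x) := by
  intro p q h
  have h1 := (transcendental_iff_injective.mp hx) h
  exact Polynomial.map_injective _ Subtype.val_injective h1

variable (A₀ x) in
/-- `A₀[X] → A₀[x]`. -/
def toPoly : A₀[X] →+* polyRing A₀.toSubring x :=
  (toF A₀ x).codRestrict (polyRing A₀.toSubring x) toF_mem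

theorem coe_toPoly (p : A₀[X]) : ((toPoly A₀ x p : polyRing A₀.toSubring x) : F) =
    aeval x (p.map A₀.subtype) := rfl

theorem toPoly_bijective (hx : Transcendental K₀ x) : Function.Bijective (toPoly A₀ x) := by
  constructor
  · intro p q h
    exact toF_injective hx (congrArg Subtype.val h)
  · rintro ⟨y, hy⟩
    obtain ⟨p, hp, rfl⟩ := (mem_polyRing_iff _ _ _).mp hy
    have h : p ∈ Polynomial.lifts A₀.subtype := by
      rw [Polynomial.lifts_iff_coeff_lifts]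
      intro i
      exact ⟨⟨_, hp i⟩, rfl⟩
    obtain ⟨q, rfl⟩ := h
    exact ⟨q, Subtype.ext rfl⟩

/-- `A₀[X] ≃ A₀[x]`. -/
def equiv (hx : Transcendental K₀ x) : A₀[X] ≃+* polyRing A₀.toSubring x :=
  RingEquiv.ofBijective (toPoly A₀ x) (toPoly_bijective hx)

theorem equiv_apply (hx : Transcendental K₀ x) (p : A₀[X]) : equiv hx p = toPoly A₀ x p := rfl

theorem eq_equiv_C (h₀ : IsUnif A₀ ϖ₀) (hx : Transcendental K₀ x)
    (π : polyRing A₀.toSubring x) (hπ : (π : F) = algebraMap K₀ F ϖ₀) :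
    π = equiv hx (C (⟨ϖ₀, h₀.mem⟩ : A₀)) := by
  apply Subtype.ext
  rw [hπ, equiv_apply, coe_toPoly, Polynomial.map_C, aeval_C]
  rfl

/-- reduction modulo the maximal ideal on `A₀[x]`. -/
def red (hx : Transcendental K₀ x) :
    polyRing A₀.toSubring x →+* (IsLocalRing.ResidueField A₀)[X] :=
  (mapRingHom (IsLocalRing.residue A₀)).comp (equiv hx).symm.toRingHom

theorem red_toPoly (hx : Transcendental K₀ x) (g : A₀[X]) :
    red hx (toPoly A₀ x g) = g.map (IsLocalRing.residue A₀) := by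
  show mapRingHom _ ((equiv hx).symm (equiv hx g)) = _
  rw [RingEquiv.symm_apply_apply, coe_mapRingHom]

theorem ker_mapRingHom_residue (h₀ : IsUnif A₀ ϖ₀) :
    RingHom.ker (mapRingHom (IsLocalRing.residue A₀)) =
      Ideal.span {C (⟨ϖ₀, h₀.mem⟩ : A₀)} := by
  rw [Polynomial.ker_mapRingHom, IsLocalRing.ker_residue, maximalIdeal_eq h₀, Ideal.map_span,
    Set.image_singleton]

theorem ker_red (h₀ : IsUnif A₀ ϖ₀) (hx : Transcendental K₀ x)
    (π : polyRing A₀.toSubring x) (hπ : (π : F) = algebraMap K₀ F ϖ₀) :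
    RingHom.ker (red hx) = Ideal.span {π} := by
  ext a
  obtain ⟨g, rfl⟩ := (equiv hx).surjective a
  rw [RingHom.mem_ker, equiv_apply, red_toPoly, ← coe_mapRingHom, ← RingHom.mem_ker,
    ker_mapRingHom_residue h₀, Ideal.mem_span_singleton, Ideal.mem_span_singleton,
    ← equiv_apply hx, eq_equiv_C h₀ hx π hπ]
  exact (map_dvd_iff (equiv hx)).symm

theorem red_surjective (hx : Transcendental K₀ x) :
    Function.Surjective (red (A₀ := A₀) hx) := by
  intro q
  obtain ⟨g, hg⟩ := Polynomial.map_surjective _ IsLocalRing.residue_surjective q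
  exact ⟨toPoly A₀ x g, by rw [red_toPoly, hg]⟩

/-- `A₀[x]/ϖ ≃ k[X]`. -/
def quotEquiv (h₀ : IsUnif A₀ ϖ₀) (hx : Transcendental K₀ x)
    (π : polyRing A₀.toSubring x) (hπ : (π : F) = algebraMap K₀ F ϖ₀) :
    (polyRing A₀.toSubring x ⧸ Ideal.span {π}) ≃+* (IsLocalRing.ResidueField A₀)[X] :=
  (Ideal.quotEquivOfEq (ker_red h₀ hx π hπ).symm).trans
    (RingHom.quotientKerEquivOfSurjective (red_surjective hx))

theorem quotEquiv_mk (h₀ : IsUnif A₀ ϖ₀) (hx : Transcendental K₀ x)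
    (π : polyRing A₀.toSubring x) (hπ : (π : F) = algebraMap K₀ F ϖ₀)
    (a : polyRing A₀.toSubring x) :
    quotEquiv h₀ hx π hπ (Ideal.Quotient.mk _ a) = red hx a := rfl

end DedPolyQuot

open DedPolyQuot

theorem prime_unif_polyRing (h₀ : IsUnif A₀ ϖ₀) (hx : Transcendental K₀ x)
    (π : polyRing A₀.toSubring x) (hπ : (π : F) = algebraMap K₀ F ϖ₀) : Prime π := by
  rw [eq_equiv_C h₀ hx π hπ, MulEquiv.prime_iff, Polynomial.prime_C_iff]
  exact prime_unif h₀

theorem isPrincipalIdealRing_polyRing_quotient (h₀ : IsUnif A₀ ϖ₀) (hx : Transcendental K₀ x)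
    (π : polyRing A₀.toSubring x) (hπ : (π : F) = algebraMap K₀ F ϖ₀) :
    IsPrincipalIdealRing (polyRing A₀.toSubring x ⧸ Ideal.span {π}) :=
  IsPrincipalIdealRing.of_surjective (quotEquiv h₀ hx π hπ).symm.toRingHom
    (quotEquiv h₀ hx π hπ).symm.surjective

theorem squarefree_mk_polyRing (h₀ : IsUnif A₀ ϖ₀) (hx : Transcendental K₀ x)
    (π : polyRing A₀.toSubring x) (hπ : (π : F) = algebraMap K₀ F ϖ₀)
    (g : A₀[X]) (hg : Squarefree (g.map (IsLocalRing.residue A₀)))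
    (D : polyRing A₀.toSubring x) (hD : (D : F) = aeval x (g.map A₀.subtype)) :
    Squarefree (Ideal.Quotient.mk (Ideal.span {π}) D) := by
  have hD' : D = toPoly A₀ x g := Subtype.ext (by rw [hD, coe_toPoly])
  intro a ha
  have h1 := map_dvd (quotEquiv h₀ hx π hπ) ha
  rw [map_mul, quotEquiv_mk, hD', red_toPoly] at h1
  have h2 := hg _ h1
  exact (isUnit_map_iff (quotEquiv h₀ hx π hπ) a).mp h2

end Fermat.Agent.S18
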