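/-
KL-A, block CHART/Ded, node KLA-DED-S (proofs helper243).
A primitive multiplier moves every element of `Ow` into the chart, and the chart contains an
element whose trace is not divisible by the uniformiser.
-/
import Mathlib
import Fermat.Agent.S18.Defs
import Fermat.Agent.S18.Chart.Unif
import Fermat.Agent.S18.Chart.Const
import Fermat.Agent.S18.Chart.Coord
import Fermat.Agent.S18.Chart.Mem

set_option autoImplicit false

noncomputable section

namespace Fermat.Agent.S18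

open Polynomial IntermediateField

variable {K₀ F : Type*} [Field K₀] [Field F] [Algebra K₀ F]
variable {A₀ : ValuationSubring K₀} {ϖ₀ : K₀} {Ow : ValuationSubring F}
variable {E : IntermediateField K₀ F} {x : F}

open IntermediateField.algebraAdjoinAdjoin in
/-- Every element of a finite extension of `K₀(x)` has a nonzero multiple by an element of `K₀[x]`
which is integral over `K₀[x]`. -/
theorem DedSep.exists_mul_mem_chart_top (hfin : FiniteDimensional E F) (hE : K₀⟮x⟯ = E) (y : F) :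
    ∃ q : K₀[X], aeval x q ≠ 0 ∧ aeval x q * y ∈ chart (⊤ : Subring K₀) x := by
  subst hE
  have halg : IsAlgebraic K₀⟮x⟯ y := Algebra.IsAlgebraic.isAlgebraic y
  have halg' : IsAlgebraic (Algebra.adjoin K₀ {x}) y :=
    (IsFractionRing.isAlgebraic_iff (Algebra.adjoin K₀ {x}) K₀⟮x⟯ F).mpr halg
  obtain ⟨q, hq0, hq⟩ := halg'.exists_integral_multiple
  obtain ⟨q₁, hq₁⟩ : ∃ q₁ : K₀[X], aeval x q₁ = (q : F) := by
    have h := (mem_polyRing_top_iff x (q : F)).mpr q.2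
    obtain ⟨q₁, -, hq₁⟩ := (mem_polyRing_iff _ _ _).mp h
    exact ⟨q₁, hq₁⟩
  refine ⟨q₁, ?_, ?_⟩
  · rw [hq₁]
    exact fun h => hq0 (Subtype.ext h)
  · rw [mem_chart_iff_isIntegral, hq₁]
    exact isIntegral_of_forall_exists_algebraMap
      (fun r => ⟨⟨r.1, (mem_polyRing_top_iff x r.1).mpr r.2⟩, rfl⟩) hq

theorem DedSep.algebraMap_mem_chart_top (c : K₀) :
    algebraMap K₀ F c ∈ chart (⊤ : Subring K₀) x :=
  polyRing_le_chart _ _ ((mem_polyRing_iff _ _ _).mpr ⟨C c, fun _ => Subring.mem_top _, by simp⟩)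

theorem exists_primitive_mul_mem_chart (hV : IsVert A₀ ϖ₀ Ow E) (hx : IsCoord A₀ ϖ₀ Ow E x) :
    ∀ y ∈ Ow, ∃ p : K₀[X], (∀ i, p.coeff i ∈ A₀) ∧ (∃ i, (p.coeff i)⁻¹ ∈ A₀ ∧ p.coeff i ≠ 0) ∧
      aeval x p * y ∈ chart A₀.toSubring x := by
  intro y hy
  have h₀ := hV.unif₀
  have hϖ := h₀.ne_zero
  obtain ⟨q, hq0, hq⟩ := DedSep.exists_mul_mem_chart_top hV.finite hx.adjoin_eq y
  have hq0' : q ≠ 0 := by
    rintro rfl
    exact hq0 (map_zero _)
  obtain ⟨n, p, hqp, h1, h2⟩ := IsCoord.exists_primitive h₀ q hq0'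
  refine ⟨p, h1, h2, (mem_chart_iff hV hx _).mpr ⟨?_, ?_⟩⟩
  · exact Ow.mul_mem _ _ (hx.unit_of_primitive hV.unif hV.const_mem h₀ p h1 h2).1 hy
  · have h3 : aeval x p * y = algebraMap K₀ F (ϖ₀ ^ (-n)) * (aeval x q * y) := by
      rw [hqp, map_mul, aeval_C, ← mul_assoc, ← mul_assoc, ← map_mul, ← zpow_add₀ hϖ,
        neg_add_cancel, zpow_zero, map_one, one_mul]
    rw [h3]
    exact (chart (⊤ : Subring K₀) x).mul_mem (DedSep.algebraMap_mem_chart_top _) hq

theorem exists_trace_div_notMem (hV : IsVert A₀ ϖ₀ Ow E) (hx : IsCoord A₀ ϖ₀ Ow E x) :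
    ∃ y ∈ chart A₀.toSubring x,
      ((Algebra.trace E F y : E) : F) / algebraMap K₀ F ϖ₀ ∉ polyRing A₀.toSubring x := by
  have h₀ := hV.unif₀
  obtain ⟨y₁, hy₁, htr⟩ := hV.sep
  obtain ⟨p, h1, h2, hp⟩ := exists_primitive_mul_mem_chart hV hx y₁ hy₁
  obtain ⟨hu1, hu2⟩ := hx.unit_of_primitive hV.unif hV.const_mem h₀ p h1 h2
  have hmemE : aeval x p ∈ E := by
    rw [← hx.adjoin_eq]
    have hle : Algebra.adjoin K₀ {x} ≤ (K₀⟮x⟯).toSubalgebra :=
      IntermediateField.algebra_adjoin_le_adjoin K₀ {x}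
    apply hle
    rw [Algebra.adjoin_singleton_eq_range_aeval]
    exact ⟨p, rfl⟩
  have hsm : aeval x p * y₁ = (⟨aeval x p, hmemE⟩ : E) • y₁ := rfl
  refine ⟨aeval x p * y₁, hp, ?_⟩
  rw [hsm, map_smul, htr, smul_eq_mul, mul_one]
  intro hmem
  have hu0 : aeval x p ≠ 0 := by
    intro h
    apply hx.not_div_mem_of_primitive h₀ p h1 h2
    rw [h, zero_div]
    exact Ow.zero_mem
  refine hV.unif.not_both hu0 ?_ hu2
  obtain ⟨r, hr, hre⟩ := (mem_polyRing_iff _ _ _).mp hmem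
  change aeval x r = aeval x p / algebraMap K₀ F ϖ₀ at hre
  rw [← hre, aeval_eq_sum_range]
  refine Ow.toSubring.sum_mem fun i _ => ?_
  rw [Algebra.smul_def]
  exact mul_mem (hV.const_mem _ (hr i)) (pow_mem hx.mem i)

end Fermat.Agent.S18
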