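/-
KL-A, block CHART/Ded, node KLA-DED-R: `IsUnramOutside` gives reducedness of `chart ⊤ x / f` for
the primes `f` of `K₀[x]` which do not divide `g(x)`.
-/
import Mathlib
import Fermat.Agent.S18.Defs
import Fermat.Agent.S18.Chart.Const

set_option autoImplicit false

noncomputable section

namespace Fermat.Agent.S18

open Polynomial IntermediateField

variable {K₀ F : Type*} [Field K₀] [Field F] [Algebra K₀ F]
variable {x : F}

/-- the evaluation map `K₀[X] → K₀[x]`. -/
def dedUnramHom (x : F) : K₀[X] →+* polyRing (⊤ : Subring K₀) x :=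
  ((aeval x : K₀[X] →ₐ[K₀] F).toRingHom).codRestrict _
    (fun p => (mem_polyRing_iff _ _ _).mpr ⟨p, fun _ => Subring.mem_top _, rfl⟩)

theorem dedUnramHom_coe (x : F) (p : K₀[X]) : ((dedUnramHom x p : polyRing (⊤ : Subring K₀) x) : F)
    = aeval x p := rfl

theorem dedUnramHom_bijective (hx : Transcendental K₀ x) :
    Function.Bijective (dedUnramHom (K₀ := K₀) x) := by
  constructor
  · intro p q hpq
    have h := congrArg (Subtype.val) hpq
    exact (transcendental_iff_injective.mp hx) h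
  · rintro ⟨y, hy⟩
    obtain ⟨p, -, rfl⟩ := (mem_polyRing_iff _ _ _).mp hy
    exact ⟨p, rfl⟩

theorem reduced_of_isUnramOutside (hx : Transcendental K₀ x) (g : K₀[X])
    (hram : IsUnramOutside x g) (D : polyRing (⊤ : Subring K₀) x) (hD : (D : F) = aeval x g)
    (f : polyRing (⊤ : Subring K₀) x) (hf : Prime f) (hfD : ¬ f ∣ D) :
    ∀ z ∈ chart (⊤ : Subring K₀) x, z ^ 2 / (f : F) ∈ chart (⊤ : Subring K₀) x →
      z / (f : F) ∈ chart (⊤ : Subring K₀) x := by
  set e : K₀[X] ≃+* polyRing (⊤ : Subring K₀) x :=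
    RingEquiv.ofBijective (dedUnramHom x) (dedUnramHom_bijective hx) with he
  obtain ⟨f₀, rfl⟩ := e.surjective f
  have hDe : D = e g := Subtype.ext hD
  have hf₀ : Prime f₀ := (MulEquiv.prime_iff e).mp hf
  have hnd : ¬ f₀ ∣ g := fun h => hfD (hDe ▸ map_dvd e h)
  have hcop : IsCoprime f₀ g := (hf₀.irreducible.coprime_iff_not_dvd).mpr hnd
  intro z hz hz2
  exact hram f₀ hf₀.irreducible.squarefree hcop z hz hz2

end Fermat.Agent.S18
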