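/-
KL-A, block CHART/Ded (architect helper287; assembly file written by helper289 from
`WIP/DedSkeleton.lean`): `ded_chart` = the field `ded` of `isChart_chart`.
-/
import Mathlib
import Fermat.Agent.S18.Defs
import Fermat.Agent.S18.Chart.Unif
import Fermat.Agent.S18.Chart.Const
import Fermat.Agent.S18.Chart.Coord
import Fermat.Agent.S18.Chart.DedUnif
import Fermat.Agent.S18.Chart.DedFrac
import Fermat.Agent.S18.Chart.DedPoly
import Fermat.Agent.S18.Chart.DedPolyQuot
import Fermat.Agent.S18.Chart.DedPrime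
import Fermat.Agent.S18.Chart.DedSep
import Fermat.Agent.S18.Chart.DedUnram
import Fermat.Agent.S18.Nor.Subring

set_option autoImplicit false

noncomputable section

namespace Fermat.Agent.S18

open Polynomial IntermediateField

variable {K₀ F : Type*} [Field K₀] [Field F] [Algebra K₀ F]
variable {A₀ : ValuationSubring K₀} {ϖ₀ : K₀} {Ow : ValuationSubring F}
variable {E : IntermediateField K₀ F} {x : F}

theorem ded_chart [CharZero K₀] (hV : IsVert A₀ ϖ₀ Ow E) (hx : IsCoord A₀ ϖ₀ Ow E x)
    (g : A₀[X]) (hg : Squarefree (g.map (IsLocalRing.residue A₀)))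
    (hram : IsUnramOutside x (g.map A₀.subtype))
    (ϖB : chart A₀.toSubring x) (hϖB : (ϖB : F) = algebraMap K₀ F ϖ₀) :
    IsDedekindDomain (chart A₀.toSubring x ⧸ Ideal.span {ϖB}) := by
  have h₀ := hV.unif₀
  have htr : Transcendental K₀ x := hx.transcendental h₀
  have : CharZero F := charZero_of_injective_algebraMap (algebraMap K₀ F).injective
  have : FiniteDimensional E F := hV.finite
  have hπmem : algebraMap K₀ F ϖ₀ ∈ polyRing A₀.toSubring x :=
    (mem_polyRing_iff _ _ _).mpr ⟨C ϖ₀, fun i => by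
      rw [coeff_C]; split_ifs
      · exact h₀.mem
      · exact A₀.zero_mem, by simp⟩
  have hDmem : aeval x (g.map A₀.subtype) ∈ polyRing A₀.toSubring x :=
    (mem_polyRing_iff _ _ _).mpr ⟨g.map A₀.subtype, fun i => by
      rw [coeff_map]; exact (g.coeff i).2, rfl⟩
  obtain ⟨y, hy, hty⟩ := exists_trace_div_notMem hV hx
  refine Nor.isDedekindDomain_quotient_subring E (polyRing A₀.toSubring x) (chart A₀.toSubring x)
    (polyRing (⊤ : Subring K₀) x) (chart (⊤ : Subring K₀) x) (polyRing_mono le_top x)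
    (mem_of_mem_polyRing hx.adjoin_eq _) (exists_frac_polyRing h₀ hx.adjoin_eq)
    (fun _ => Iff.rfl) (fun _ => Iff.rfl) (isNoetherianRing_polyRing h₀ htr)
    (mem_polyRing_of_isIntegral h₀ htr hx.adjoin_eq) (isPrincipalIdealRing_polyRing_top htr)
    (fun n _ => ?_) ⟨_, hπmem⟩ ?_ (exists_pow_mul_mem_polyRing h₀)
    (prime_unif_polyRing h₀ htr _ rfl) (isPrincipalIdealRing_polyRing_quotient h₀ htr _ rfl)
    ϖB hϖB (prime_unif_chart hV hx ϖB hϖB) y hy hty ⟨_, hDmem⟩
    (squarefree_mk_polyRing h₀ htr _ rfl g hg _ rfl)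
    (fun f hf hfD => reduced_of_isUnramOutside htr _ hram _ rfl f hf hfD)
  · have := algebraMap_mem_polyRing_top (F := F) (x := x) ((n : K₀)⁻¹)
    rwa [map_inv₀, map_natCast] at this
  · have := algebraMap_mem_polyRing_top (F := F) (x := x) (ϖ₀⁻¹)
    rwa [map_inv₀] at this

end Fermat.Agent.S18

end
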