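/-
KL-A, block CHART/Ded, node KLA-DED-Q (helper258): the uniformiser is prime in the chart.
-/
import Mathlib
import Fermat.Agent.S18.Defs
import Fermat.Agent.S18.Chart.Unif
import Fermat.Agent.S18.Chart.Const
import Fermat.Agent.S18.Chart.Coord
import Fermat.Agent.S18.Chart.Mem

set_option autoImplicit false

noncomputable section

namespace Fermat.Agent.S18

open Polynomial IntermediateField

variable {K₀ F : Type*} [Field K₀] [Field F] [Algebra K₀ F]
variable {A₀ : ValuationSubring K₀} {ϖ₀ : K₀} {Ow : ValuationSubring F}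
variable {E : IntermediateField K₀ F} {x : F}

/-- constants lie in `K₀[x]`. -/
theorem DedPrimeAux.algebraMap_mem_chart_top (c : K₀) :
    algebraMap K₀ F c ∈ chart (⊤ : Subring K₀) x :=
  polyRing_le_chart _ _ ((mem_polyRing_iff _ _ _).mpr
    ⟨C c, fun _ => Subring.mem_top _, by simp⟩)

/-- a non unit of `Ow` lying in the chart is divisible by the uniformiser in the chart. -/
theorem DedPrimeAux.dvd_of_inv_notMem (hw : IsUnif Ow (algebraMap K₀ F ϖ₀))
    (hmem : ∀ z : F, z ∈ chart A₀.toSubring x ↔ z ∈ Ow ∧ z ∈ chart (⊤ : Subring K₀) x)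
    (ϖB : chart A₀.toSubring x) (hϖB : (ϖB : F) = algebraMap K₀ F ϖ₀)
    (b : chart A₀.toSubring x) (hb : (b : F)⁻¹ ∉ Ow) : ϖB ∣ b := by
  have hb' := (hmem _).mp b.2
  have h1 : (b : F) / algebraMap K₀ F ϖ₀ ∈ Ow := hw.div_mem hb'.1 hb
  have h2 : (b : F) / algebraMap K₀ F ϖ₀ ∈ chart (⊤ : Subring K₀) x := by
    rw [div_eq_mul_inv, ← map_inv₀]
    exact Subring.mul_mem _ hb'.2 (DedPrimeAux.algebraMap_mem_chart_top _)
  refine ⟨⟨_, (hmem _).mpr ⟨h1, h2⟩⟩, ?_⟩
  apply Subtype.ext
  have h0 := hw.ne_zero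
  simp only [Subring.coe_mul, hϖB]
  field_simp

theorem prime_unif_chart_of_mem_chart_iff (hw : IsUnif Ow (algebraMap K₀ F ϖ₀))
    (hmem : ∀ z : F, z ∈ chart A₀.toSubring x ↔ z ∈ Ow ∧ z ∈ chart (⊤ : Subring K₀) x)
    (ϖB : chart A₀.toSubring x) (hϖB : (ϖB : F) = algebraMap K₀ F ϖ₀) : Prime ϖB := by
  have h0 := hw.ne_zero
  refine ⟨?_, ?_, ?_⟩
  · intro h
    apply h0
    rw [← hϖB, h]
    rfl
  · intro hu
    obtain ⟨c, hc⟩ := hu.exists_right_inv
    apply hw.inv_notMem
    have hc' : algebraMap K₀ F ϖ₀ * (c : F) = 1 := by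
      rw [← hϖB]
      exact congrArg Subtype.val hc
    rw [← eq_inv_of_mul_eq_one_right hc']
    exact ((hmem _).mp c.2).1
  · intro b c hbc
    by_cases hb : (b : F)⁻¹ ∈ Ow
    · by_cases hc : (c : F)⁻¹ ∈ Ow
      · -- both are units of `Ow`: impossible unless the product vanishes
        rcases eq_or_ne (b * c) 0 with hz | hz
        · rcases mul_eq_zero.mp hz with h | h
          · exact Or.inl (h ▸ dvd_zero _)
          · exact Or.inr (h ▸ dvd_zero _)
        · exfalso
          obtain ⟨d, hd⟩ := hbc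
          have hd' : (b : F) * (c : F) = algebraMap K₀ F ϖ₀ * (d : F) := by
            rw [← hϖB]
            exact congrArg Subtype.val hd
          have hz' : (b : F) * (c : F) ≠ 0 := by
            intro h
            apply hz
            apply Subtype.ext
            exact h
          refine hw.not_both hz' ?_ ?_
          · rw [hd', mul_div_cancel_left₀ _ h0]
            exact ((hmem _).mp d.2).1
          · rw [mul_inv]
            exact Ow.mul_mem _ _ hb hc
      · exact Or.inr (DedPrimeAux.dvd_of_inv_notMem hw hmem ϖB hϖB c hc)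
    · exact Or.inl (DedPrimeAux.dvd_of_inv_notMem hw hmem ϖB hϖB b hb)

theorem prime_unif_chart (hV : IsVert A₀ ϖ₀ Ow E) (hx : IsCoord A₀ ϖ₀ Ow E x)
    (ϖB : chart A₀.toSubring x) (hϖB : (ϖB : F) = algebraMap K₀ F ϖ₀) : Prime ϖB :=
  prime_unif_chart_of_mem_chart_iff hV.unif (mem_chart_iff hV hx) ϖB hϖB

end Fermat.Agent.S18
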