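/-
KL-A, block CHART (assembly, helper289): `IsChart` for the chart, relative to the field `ded`.
-/
import Mathlib
import Fermat.Agent.S18.Defs
import Fermat.Agent.S18.Chart.Unif
import Fermat.Agent.S18.Chart.Const
import Fermat.Agent.S18.Chart.Coord
import Fermat.Agent.S18.Chart.Mem
import Fermat.Agent.S18.Chart.Basic
import Fermat.Agent.S18.Chart.Finite

set_option autoImplicit false

noncomputable section

namespace Fermat.Agent.S18

open Polynomial IntermediateField

variable {K₀ F : Type*} [Field K₀] [Field F] [Algebra K₀ F]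
variable {A₀ : ValuationSubring K₀} {ϖ₀ : K₀} {Ow : ValuationSubring F}
variable {E : IntermediateField K₀ F} {x : F}

theorem isChart_chart_of_ded [CharZero K₀] (hV : IsVert A₀ ϖ₀ Ow E) (hx : IsCoord A₀ ϖ₀ Ow E x)
    (hded : ∀ ϖB : chart A₀.toSubring x, (ϖB : F) = algebraMap K₀ F ϖ₀ →
      IsDedekindDomain (chart A₀.toSubring x ⧸ Ideal.span {ϖB})) :
    IsChart Ow (algebraMap K₀ F ϖ₀) (chart A₀.toSubring x) where
  le := chart_le hV hx
  unif_mem := unif_mem_chart hV
  qep := chart_qep hV hx
  loc := chart_loc hV hx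
  intClosed := fun y hy => mem_chart_of_isIntegral_chart _ _ _ hy
  noeth := chart_noeth hV hx
  ded := hded

end Fermat.Agent.S18

end
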