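/-
KL-A, block CHART (assembly, helper289): `isChart_chart`.
-/
import Mathlib
import Fermat.Agent.S18.Chart.IsChartOfDed
import Fermat.Agent.S18.Chart.Ded

set_option autoImplicit false

noncomputable section

namespace Fermat.Agent.S18

open Polynomial IntermediateField

variable {K₀ F : Type*} [Field K₀] [Field F] [Algebra K₀ F]
variable {A₀ : ValuationSubring K₀} {ϖ₀ : K₀} {Ow : ValuationSubring F}
variable {E : IntermediateField K₀ F} {x : F}

theorem isChart_chart [CharZero K₀] (hV : IsVert A₀ ϖ₀ Ow E) (hx : IsCoord A₀ ϖ₀ Ow E x)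
    (g : A₀[X]) (hg : Squarefree (g.map (IsLocalRing.residue A₀)))
    (hram : IsUnramOutside x (g.map A₀.subtype)) :
    IsChart Ow (algebraMap K₀ F ϖ₀) (chart A₀.toSubring x) :=
  isChart_chart_of_ded hV hx fun ϖB hϖB => ded_chart hV hx g hg hram ϖB hϖB

end Fermat.Agent.S18

end
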